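import Mathlib
import Fermat.Prelude.Def_GaloisRep_Residual
import Fermat.Prelude.Def_CuspForm_HeckeAlgebra

/-!
# The algebraic model of the Tate module of `J₀(N)`

`GalModel N p` records, in coordinates, everything used about the `p`-adic Tate module: integral
Hecke matrices, continuous Galois matrices commuting with them, the relation of Eichler–Shimura,
trivial inertia away from `N p`, and for each character of the Hecke ring an eigenspace of
dimension two on which a complex conjugation has both eigenvalues `1` and `-1`.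
It is constructed in `Fermat.Agent.Reps.Tate`; the representations of eigenforms are deduced
from the structure alone.
-/

set_option autoImplicit false

noncomputable section

open CuspForm Matrix

namespace FLTAgent.Reps

local notation "ℚ̄" => AlgebraicClosure ℚ
local notation "Γℚ" => (AlgebraicClosure ℚ ≃ₐ[ℚ] AlgebraicClosure ℚ)

/-- The full weight two Hecke ring of level `N`. -/
abbrev TZ (N : ℕ) [NeZero N] := ↥(heckeAlgebra N 2 (∅ : Set ℕ))

/-- `T_ℓ` in the full Hecke ring. -/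
abbrev heckeTOf {N : ℕ} [NeZero N] {ℓ : ℕ} (hℓ : ℓ.Prime) (hℓN : ¬ ℓ ∣ N) : TZ N :=
  heckeAlgebra.T (k := 2) (S := (∅ : Set ℕ)) hℓ hℓN (Set.notMem_empty ℓ)

/-- Simultaneous eigenspace of a family of matrices. -/
def eigenSub {ι T R : Type*} [Fintype ι] [CommRing R] (f : T → Matrix ι ι R) (χ : T → R) :
    Submodule R (ι → R) :=
  ⨅ t : T, LinearMap.ker ((f t).mulVecLin - χ t • (LinearMap.id : (ι → R) →ₗ[R] ι → R))

theorem mem_eigenSub {ι T R : Type*} [Fintype ι] [CommRing R] {f : T → Matrix ι ι R} {χ : T → R}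
    {v : ι → R} : v ∈ eigenSub f χ ↔ ∀ t, (f t) *ᵥ v = χ t • v := by
  simp [eigenSub, sub_eq_zero]

/-- The Tate module of `J₀(N)` at `p` as a Hecke and Galois module, in coordinates. -/
structure GalModel (N : ℕ) [NeZero N] (p : ℕ) [Fact p.Prime] where
  /-- The rank. -/
  r : ℕ
  /-- The integral Hecke action. -/
  τ : TZ N →+* Matrix (Fin r) (Fin r) ℤ
  τ_injective : Function.Injective τ
  /-- The Galois action. -/
  M : Γℚ →* Matrix (Fin r) (Fin r) ℤ_[p]
  continuous_level : ∀ m : ℕ, ∃ L : IntermediateField ℚ ℚ̄, FiniteDimensional ℚ L ∧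
    ∀ σ : Γℚ, (∀ x ∈ L, σ x = x) → (PadicInt.toZModPow m).mapMatrix (M σ) = 1
  commute_hecke : ∀ (σ : Γℚ) (t : TZ N),
    Commute (M σ) ((Int.castRingHom ℤ_[p]).mapMatrix (τ t))
  frobenius_rel : ∀ (ℓ : ℕ) (hℓ : ℓ.Prime) (hℓN : ¬ ℓ ∣ N), ℓ ≠ p →
    ∀ A : ValuationSubring ℚ̄, A.LiesOverPrime ℓ → ∀ σ : Γℚ, A.IsFrobeniusAt σ ℓ →
      M σ * M σ - (Int.castRingHom ℤ_[p]).mapMatrix (τ (heckeTOf hℓ hℓN)) * M σ
        + (ℓ : Matrix (Fin r) (Fin r) ℤ_[p]) = 0
  inertia_trivial : ∀ (q : ℕ), q.Prime → ¬ q ∣ N → q ≠ p →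
    ∀ A : ValuationSubring ℚ̄, A.LiesOverPrime q → ∀ σ ∈ A.inertiaSubgroupIn ℚ, M σ = 1
  /-- A complex conjugation. -/
  cc : Γℚ
  cc_mul_self : cc * cc = 1
  finrank_eigen : ∀ (K : Type) [Field K] [CharZero K] (χ : TZ N →+* K),
    Module.finrank K (eigenSub (fun t => (Int.castRingHom K).mapMatrix (τ t)) χ) = 2
  exists_plus : ∀ (K : Type) [Field K] [CharZero K] (χ : TZ N →+* K) (f : ℤ_[p] →+* K),
    ∃ v ∈ eigenSub (fun t => (Int.castRingHom K).mapMatrix (τ t)) χ,
      v ≠ 0 ∧ f.mapMatrix (M cc) *ᵥ v = v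
  exists_minus : ∀ (K : Type) [Field K] [CharZero K] (χ : TZ N →+* K) (f : ℤ_[p] →+* K),
    ∃ v ∈ eigenSub (fun t => (Int.castRingHom K).mapMatrix (τ t)) χ,
      v ≠ 0 ∧ f.mapMatrix (M cc) *ᵥ v = -v

end FLTAgent.Reps
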