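import Mathlib
import Fermat.Prelude.Thm_Algebra_finite_maximalSpectrum_and_bijective_localization_of_module_finite
import Fermat.Prelude.Thm_IsLocalRing_isAdicComplete_of_module_finite

/-!
# Extending characters to finite extensions of a complete discrete valuation ring

* `isLocalRing_of_finite_domain`: a domain that is finite over a complete Noetherian local ring is
  local (it is the product of its localisations at maximal ideals and has no nontrivial
  idempotents).
* `exists_ringHom_extension`: extension of a map into an algebraically closed field along an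
  injective integral map.
* `exists_dvr_extension`: a character `A →+* O` extends along an injective finite map `A →+* B`
  after replacing `O` by a finite extension `O'`, again a complete discrete valuation ring: the
  integral closure of `O` in a finite extension of its fraction field.
-/

set_option autoImplicit false

noncomputable section

open IsLocalRing (maximalIdeal ResidueField)

namespace FLTAgent.Reps

/-- A domain finite over a complete Noetherian local ring is local. -/
theorem isLocalRing_of_finite_domain {O : Type} [CommRing O] [IsLocalRing O] [IsNoetherianRing O]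
    [IsAdicComplete (maximalIdeal O) O] (D : Type) [CommRing D] [IsDomain D] [Algebra O D]
    [Module.Finite O D] : IsLocalRing D := by
  obtain ⟨-, hbij, -, -⟩ :=
    Algebra.finite_maximalSpectrum_and_bijective_localization_of_module_finite (𝒪 := O) D
  have hsub : Subsingleton (MaximalSpectrum D) := by
    classical
    refine ⟨fun I J => ?_⟩
    by_contra hne
    obtain ⟨e, he⟩ := hbij.2 (Pi.single I 1)
    have hidem : IsIdempotentElem e := hbij.1 (by
      rw [map_mul, he, ← Pi.single_mul, one_mul])
    rcases IsIdempotentElem.iff_eq_zero_or_one.mp hidem with h | h <;> subst h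
    · have := congrFun he I; simp at this
    · have := congrFun he J
      rw [Pi.single_eq_of_ne (Ne.symm hne)] at this
      simp at this
  obtain ⟨M, hM⟩ := Ideal.exists_maximal D
  exact IsLocalRing.of_unique_max_ideal ⟨M, hM, fun J hJ => congrArg MaximalSpectrum.asIdeal
    (Subsingleton.elim (⟨J, hJ⟩ : MaximalSpectrum D) ⟨M, hM⟩)⟩

/-- A ring homomorphism into an algebraically closed field extends along an injective integral
homomorphism. -/
theorem exists_ringHom_extension {A B Ω : Type} [CommRing A] [CommRing B] [Field Ω] [IsAlgClosed Ω]
    {i : A →+* B} (hinj : Function.Injective i) (hint : i.IsIntegral) (f : A →+* Ω) :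
    ∃ g : B →+* Ω, g.comp i = f := by
  algebraize [i]
  have : Algebra.IsIntegral A B := ⟨hint⟩
  set P : Ideal A := RingHom.ker f with hP
  have : P.IsPrime := RingHom.ker_isPrime f
  obtain ⟨Q, -, hQ, hcomap⟩ := Ideal.exists_ideal_over_prime_of_isIntegral P (⊥ : Ideal B)
    (by
      intro x hx
      rw [Ideal.mem_comap, Ideal.mem_bot] at hx
      rw [hinj (hx.trans (map_zero i).symm)]
      exact zero_mem _)
  let : Algebra (A ⧸ P) Ω := (RingHom.kerLift f).toAlgebra
  let : Algebra (A ⧸ P) (B ⧸ Q) :=
    (Ideal.quotientMap Q i (le_of_eq hcomap.symm)).toAlgebra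
  have : IsScalarTower A (A ⧸ P) (B ⧸ Q) := IsScalarTower.of_algebraMap_eq fun x => rfl
  have : Module.IsTorsionFree (A ⧸ P) Ω :=
    Module.isTorsionFree_iff_algebraMap_injective.mpr (RingHom.kerLift_injective f)
  have hqinj : Function.Injective (Ideal.quotientMap Q i (le_of_eq hcomap.symm)) :=
    Ideal.quotientMap_injective' (h := le_of_eq hcomap)
  have : Module.IsTorsionFree (A ⧸ P) (B ⧸ Q) :=
    Module.isTorsionFree_iff_algebraMap_injective.mpr hqinj
  have : Algebra.IsIntegral (A ⧸ P) (B ⧸ Q) := ⟨fun y => by
    obtain ⟨b, rfl⟩ := Ideal.Quotient.mk_surjective y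
    exact ((Algebra.IsIntegral.isIntegral (R := A) b).map
      (Ideal.Quotient.mkₐ A Q)).tower_top⟩
  let g : B ⧸ Q →ₐ[A ⧸ P] Ω := IsAlgClosed.lift
  exact ⟨g.toRingHom.comp (Ideal.Quotient.mk Q), RingHom.ext fun x => g.commutes (Ideal.Quotient.mk P x)⟩

/-- A finite extension of a complete discrete valuation ring receiving given integral elements. -/
theorem exists_dvr_extension {O : Type} [CommRing O] [IsDomain O] [IsDiscreteValuationRing O]
    [IsAdicComplete (maximalIdeal O) O] [Finite (ResidueField O)] [CharZero O]
    {A B : Type} [CommRing A] [CommRing B] (i : A →+* B) (hinj : Function.Injective i)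
    (hfin : i.Finite) (χ : A →+* O) :
    ∃ (O' : Type) (_ : CommRing O') (_ : IsDomain O') (_ : IsDiscreteValuationRing O')
      (_ : IsAdicComplete (maximalIdeal O') O') (_ : Finite (ResidueField O')) (_ : CharZero O')
      (_ : Algebra O O') (_ : Module.Finite O O') (_ : IsLocalHom (algebraMap O O')),
      Function.Injective (algebraMap O O') ∧
      ∃ χ' : B →+* O', χ'.comp i = (algebraMap O O').comp χ := by
  classical
  let K := FractionRing O
  have : CharZero K := charZero_of_injective_algebraMap (IsFractionRing.injective O K)
  let Ω := AlgebraicClosure K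
  obtain ⟨g, hg⟩ := exists_ringHom_extension (Ω := Ω) hinj hfin.to_isIntegral
    ((algebraMap O Ω).comp χ)
  have hgint : ∀ b, IsIntegral O (g b) := fun b => by
    obtain ⟨P, hP, hP'⟩ := hfin.to_isIntegral b
    refine ⟨P.map χ, hP.map _, ?_⟩
    rw [Polynomial.eval₂_map, ← hg, ← Polynomial.hom_eval₂, hP', map_zero]
  algebraize [i]
  have : Module.Finite A B := hfin
  obtain ⟨s, hs⟩ := Module.Finite.fg_top (R := A) (M := B)
  let L : IntermediateField K Ω := IntermediateField.adjoin K (g '' (s : Set B))
  have : FiniteDimensional K L :=
    IntermediateField.finiteDimensional_adjoin (by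
      rintro _ ⟨b, -, rfl⟩
      exact (hgint b).tower_top)
  have hmem : ∀ b, g b ∈ L := fun b => by
    have hb : b ∈ Submodule.span A (s : Set B) := hs ▸ Submodule.mem_top
    induction hb using Submodule.span_induction with
    | mem x hx => exact IntermediateField.subset_adjoin K _ ⟨x, hx, rfl⟩
    | zero => rw [map_zero]; exact zero_mem _
    | add x y _ _ hx hy => rw [map_add]; exact add_mem hx hy
    | smul a x _ hx =>
      rw [Algebra.smul_def, map_mul, show g (algebraMap A B a) = algebraMap O Ω (χ a) from
        RingHom.congr_fun hg a, IsScalarTower.algebraMap_apply O K Ω]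
      exact mul_mem (L.algebraMap_mem _) hx
  let O' := ↥(integralClosure O L)
  have : IsDedekindDomain O' := integralClosure.isDedekindDomain O K L
  have hfin : Module.Finite O O' := IsIntegralClosure.finite O K L O'
  have : IsLocalRing O' := isLocalRing_of_finite_domain (O := O) O'
  have hinjO : Function.Injective (algebraMap O O') := fun x y h => by
    have h2 : algebraMap O L x = algebraMap O L y := congrArg (fun z : O' => (z : L)) h
    rw [IsScalarTower.algebraMap_apply O K L, IsScalarTower.algebraMap_apply O K L] at h2
    exact IsFractionRing.injective O K ((algebraMap K L).injective h2)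
  have : CharZero O' := charZero_of_injective_algebraMap hinjO
  have : FaithfulSMul O O' := (faithfulSMul_iff_algebraMap_injective O O').mpr hinjO
  have : Algebra.IsIntegral O O' := Algebra.IsIntegral.of_finite O O'
  have : IsLocalHom (algebraMap O O') := Algebra.IsIntegral.isLocalHom O O'
  have : IsPrincipalIdealRing O' := IsPrincipalIdealRing.of_finite_maximals
    ((Set.finite_singleton (maximalIdeal O')).subset fun I hI => IsLocalRing.eq_maximalIdeal hI)
  have : IsDiscreteValuationRing O' :=
    { not_a_field' := fun h => by
        obtain ⟨π, hπ⟩ := IsDiscreteValuationRing.exists_irreducible O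
        have h2 : algebraMap O O' π ∈ maximalIdeal O' :=
          map_nonunit (algebraMap O O') π hπ.not_isUnit
        rw [h, Ideal.mem_bot, map_eq_zero_iff _ hinjO] at h2
        exact hπ.ne_zero h2 }
  have : IsAdicComplete (maximalIdeal O') O' :=
    IsLocalRing.isAdicComplete_of_module_finite (𝒪 := O)
  have : Finite (ResidueField O') := Module.finite_of_finite (ResidueField O)
  let χ' : B →+* O' :=
    { toFun := fun b => ⟨⟨g b, hmem b⟩,
        (isIntegral_algHom_iff (L.val.restrictScalars O) Subtype.val_injective).mp (hgint b)⟩
      map_one' := Subtype.ext (Subtype.ext (map_one g))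
      map_mul' := fun x y => Subtype.ext (Subtype.ext (map_mul g x y))
      map_zero' := Subtype.ext (Subtype.ext (map_zero g))
      map_add' := fun x y => Subtype.ext (Subtype.ext (map_add g x y)) }
  refine ⟨O', inferInstance, inferInstance, inferInstance, inferInstance, inferInstance,
    inferInstance, inferInstance, hfin, inferInstance, hinjO, χ', ?_⟩
  refine RingHom.ext fun a => Subtype.ext (Subtype.ext ?_)
  exact RingHom.congr_fun hg a

end FLTAgent.Reps
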