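import Mathlib
import Fermat.Agent.Small2.Duality

/-!
# A normalised eigenform is a Hecke eigenvector

The eigenform condition of the Prelude is a list of identities between coefficients. Comparing
`q`-coefficients gives `heckeT_eigen` and `heckeU_eigen`, hence an eigenvalue for every element of
the Hecke algebra (`exists_eigenvalue`) and the ring map `eigenHom`, with `eigenHom_T` its value
at `T_ℓ`.
-/

set_option autoImplicit false

noncomputable section

open CongruenceSubgroup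

namespace FLTAgent.Reps

variable {N : ℕ} [NeZero N] {g : CuspForm (CongruenceSubgroup.Gamma0 N) 2}

theorem coeff_mul_split (hg : g.IsNormalizedEigenform) {p : ℕ} (hp : p.Prime) (r : ℕ) {m : ℕ}
    (hm : ¬ p ∣ m) :
    ModularFormClass.qCoeff g (p ^ r * m) =
      ModularFormClass.qCoeff g (p ^ r) * ModularFormClass.qCoeff g m :=
  hg.qCoeff_mul_of_coprime _ _ ((hp.coprime_iff_not_dvd.mpr hm).pow_left r)

/-- `g` is an eigenvector of `T_p` with eigenvalue `a_p`. -/
theorem heckeT_eigen (hg : g.IsNormalizedEigenform) {p : ℕ} (hp : p.Prime) (hpN : ¬ p ∣ N) :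
    CuspForm.heckeTLin 2 hp hpN g = ModularFormClass.qCoeff g p • g := by
  refine Small2.ext_coeff fun n => ?_
  rw [Small2.coeffL_T, map_smul, smul_eq_mul]
  rcases eq_or_ne n 0 with rfl | hn
  · simp
  obtain ⟨r, m, hm, rfl⟩ : ∃ r m : ℕ, ¬ p ∣ m ∧ n = p ^ r * m :=
    Nat.exists_eq_pow_mul_and_not_dvd hn p hp.ne_one
  show ModularFormClass.qCoeff g (p * (p ^ r * m)) + _ = _ * ModularFormClass.qCoeff g (p ^ r * m)
  rw [← mul_assoc, ← pow_succ', coeff_mul_split hg hp _ hm, coeff_mul_split hg hp _ hm]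
  rcases r with _ | s
  · rw [if_neg (by simpa using hm), pow_zero, hg.qCoeff_one, zero_add, pow_one, add_zero]
    ring
  · rw [if_pos (dvd_mul_of_dvd_left (dvd_pow_self p s.succ_ne_zero) m), pow_succ' p s, mul_assoc p,
      Nat.mul_div_cancel_left _ hp.pos, ← pow_succ' p s]
    show _ + (p : ℂ) * ModularFormClass.qCoeff g (p ^ s * m) = _
    rw [coeff_mul_split hg hp _ hm, hg.qCoeff_prime_pow_of_not_dvd p s hp hpN]
    ring

/-- `g` is an eigenvector of `U_p` with eigenvalue `a_p`. -/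
theorem heckeU_eigen (hg : g.IsNormalizedEigenform) {p : ℕ} (hp : p.Prime) (hpN : p ∣ N) :
    CuspForm.heckeULin 2 hpN g = ModularFormClass.qCoeff g p • g := by
  refine Small2.ext_coeff fun n => ?_
  rw [Small2.coeffL_U hp, map_smul, smul_eq_mul]
  rcases eq_or_ne n 0 with rfl | hn
  · simp
  obtain ⟨r, m, hm, rfl⟩ : ∃ r m : ℕ, ¬ p ∣ m ∧ n = p ^ r * m :=
    Nat.exists_eq_pow_mul_and_not_dvd hn p hp.ne_one
  show ModularFormClass.qCoeff g (p * (p ^ r * m)) = _ * ModularFormClass.qCoeff g (p ^ r * m)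
  rw [← mul_assoc, ← pow_succ', coeff_mul_split hg hp _ hm, coeff_mul_split hg hp _ hm]
  rcases r with _ | s
  · rw [pow_zero, hg.qCoeff_one, zero_add, pow_one]
    ring
  · rw [hg.qCoeff_prime_pow_of_dvd p s hp hpN]
    ring

theorem exists_eigenvalue (hg : g.IsNormalizedEigenform) {t}
    (ht : t ∈ CuspForm.heckeAlgebra N 2 (∅ : Set ℕ)) : ∃ c : ℂ, t g = c • g := by
  induction ht using Algebra.adjoin_induction with
  | mem x hx =>
    rcases hx with ⟨ℓ, hℓ, hℓN, -, rfl⟩ | ⟨q, hqN, hq, -, rfl⟩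
    · exact ⟨_, heckeT_eigen hg hℓ hℓN⟩
    · exact ⟨_, heckeU_eigen hg hq hqN⟩
  | algebraMap r => exact ⟨(r : ℂ), by simp [Int.cast_smul_eq_zsmul]⟩
  | add x y _ _ hx hy =>
    obtain ⟨a, ha⟩ := hx
    obtain ⟨b, hb⟩ := hy
    exact ⟨a + b, by rw [LinearMap.add_apply, ha, hb, add_smul]⟩
  | mul x y _ _ hx hy =>
    obtain ⟨a, ha⟩ := hx
    obtain ⟨b, hb⟩ := hy
    exact ⟨b * a, by rw [Module.End.mul_apply, hb, map_smul, ha, smul_smul]⟩

/-- The system of Hecke eigenvalues of a normalised eigenform. -/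
def eigenHom (hg : g.IsNormalizedEigenform) :
    ↥(CuspForm.heckeAlgebra N 2 (∅ : Set ℕ)) →+* ℂ :=
  have key : ∀ (t : ↥(CuspForm.heckeAlgebra N 2 (∅ : Set ℕ))) (c : ℂ),
      t.1 g = c • g → Small2.coeffL 1 (t.1 g) = c := fun t c h => by
    rw [h, map_smul, show Small2.coeffL 1 g = 1 from hg.qCoeff_one, smul_eq_mul, mul_one]
  { toFun := fun t => Small2.coeffL 1 (t.1 g)
    map_one' := key 1 1 (by simp)
    map_mul' := fun s t => by
      obtain ⟨a, ha⟩ := exists_eigenvalue hg s.2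
      obtain ⟨b, hb⟩ := exists_eigenvalue hg t.2
      rw [key s a ha, key t b hb, key (s * t) (a * b)
        (by rw [MulMemClass.coe_mul, Module.End.mul_apply, hb, map_smul, ha, smul_smul, mul_comm])]
    map_zero' := by simp
    map_add' := fun s t => by simp }

/-- The eigenvalue at `T_p` is `a_p`. -/
theorem eigenHom_T (hg : g.IsNormalizedEigenform) {p : ℕ} (hp : p.Prime) (hpN : ¬ p ∣ N) :
    eigenHom hg (CuspForm.heckeAlgebra.T hp hpN (Set.notMem_empty p)) =
      ModularFormClass.qCoeff g p := by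
  show Small2.coeffL 1 (CuspForm.heckeTLin 2 hp hpN g) = _
  rw [heckeT_eigen hg hp hpN, map_smul, show Small2.coeffL 1 g = 1 from hg.qCoeff_one, smul_eq_mul,
    mul_one]

end FLTAgent.Reps
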