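import Mathlib
import Fermat.Prelude.Def_ModularCurve_ArithmeticGalois
import Fermat.Agent.FF.PlacesMain
import Fermat.Agent.FF.PlacesModular

/-!
# Divisor classes have open stabilisers

On the modular curve over `ℚ̄` every element of the function field (`exists_fix_elem`), every
place (`exists_fix_place`, by separating it from the finitely many other places above the same
value) and hence every divisor class (`exists_fix_class`) is fixed by the Galois group of some
number field. This gives continuity of the Galois action on torsion.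
-/

set_option autoImplicit false

noncomputable section

open AlgebraicCurve ModularCurve
open scoped Pointwise

namespace FLTAgent.Reps

local notation "ℚ̄" => AlgebraicClosure ℚ
local notation "Γℚ" => (AlgebraicClosure ℚ ≃ₐ[ℚ] AlgebraicClosure ℚ)

section Places

variable {K F : Type*} [Field K] [Field F] [Algebra K F]

theorem place_inv_mem_iff_ord (v : Place K F) {f : F} (hf : f ≠ 0) (h : v.ord f = 0) :
    f ∈ v.toValuationSubring ∧ f⁻¹ ∈ v.toValuationSubring := by
  obtain ⟨π, hπ⟩ := IsDiscreteValuationRing.exists_irreducible v.toValuationSubring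
  obtain ⟨u, hu⟩ := v.exists_unit_mul_zpow hf hπ
  rw [h, zpow_zero, mul_one] at hu
  refine ⟨hu ▸ SetLike.coe_mem _, ?_⟩
  have h2 : ((u : v.toValuationSubring) : F) * ((u⁻¹ : v.toValuationSubringˣ) : v.toValuationSubring) = 1 := by
    rw [← MulMemClass.coe_mul, Units.mul_inv, OneMemClass.coe_one]
  rw [hu, inv_eq_of_mul_eq_one_right h2]
  exact SetLike.coe_mem _

theorem exists_mem_notMem_of_ne {v w : Place K F} (h : w ≠ v) :
    ∃ z : F, z ∈ v.toValuationSubring ∧ z ∉ w.toValuationSubring := by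
  by_contra hall
  push Not at hall
  apply h
  refine Place.ext (le_antisymm (fun x hxw => ?_) hall)
  by_contra hxv
  apply w.ne_top'
  obtain ⟨π, hπ⟩ := IsDiscreteValuationRing.exists_irreducible v.toValuationSubring
  have hx0 : x ≠ 0 := fun h0 => hxv (h0 ▸ zero_mem _)
  have hπ0 : (π : F) ≠ 0 := by simpa using hπ.ne_zero
  obtain ⟨u, hu⟩ := v.exists_unit_mul_zpow hx0 hπ
  have hn : v.ord x < 0 := by
    by_contra hn
    obtain ⟨k, hk⟩ := Int.eq_ofNat_of_zero_le (not_lt.mp hn)
    rw [hk, zpow_natCast] at hu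
    exact hxv (hu ▸ mul_mem (SetLike.coe_mem _) (pow_mem (SetLike.coe_mem _) k))
  obtain ⟨k, hk⟩ : ∃ k : ℕ, v.ord x = -(k + 1 : ℤ) := ⟨((-v.ord x) - 1).toNat, by omega⟩
  have huinv : ((u : v.toValuationSubring) : F) * ((u⁻¹ : v.toValuationSubringˣ) : v.toValuationSubring) = 1 := by
    rw [← MulMemClass.coe_mul, Units.mul_inv, OneMemClass.coe_one]
  have hu0 : ((u : v.toValuationSubring) : F) ≠ 0 := left_ne_zero_of_mul_eq_one huinv
  have hinv : (π : F)⁻¹ = x * (((u⁻¹ : v.toValuationSubringˣ) : v.toValuationSubring) : F) * (π : F) ^ k := by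
    rw [hu, hk, mul_right_comm _ _ (((u⁻¹ : v.toValuationSubringˣ) : v.toValuationSubring) : F),
      huinv, one_mul, zpow_neg, show ((k : ℤ) + 1) = ((k + 1 : ℕ) : ℤ) by simp, zpow_natCast,
      pow_succ, mul_inv, mul_comm ((π : F) ^ k)⁻¹, mul_assoc, inv_mul_cancel₀ (pow_ne_zero _ hπ0),
      mul_one]
  have hπinv : (π : F)⁻¹ ∈ w.toValuationSubring := hinv ▸
    mul_mem (mul_mem hxw (hall _ (SetLike.coe_mem _))) (pow_mem (hall _ π.2) k)
  refine top_unique fun f _ => ?_
  rcases eq_or_ne f 0 with rfl | hf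
  · exact zero_mem _
  obtain ⟨u', hu'⟩ := v.exists_unit_mul_zpow hf hπ
  rw [hu']
  refine mul_mem (hall _ (SetLike.coe_mem _)) ?_
  rcases v.ord f with j | j
  · rw [Int.ofNat_eq_natCast, zpow_natCast]
    exact pow_mem (hall _ π.2) j
  · rw [zpow_negSucc, ← inv_pow]
    exact pow_mem hπinv _

end Places

variable (N : ℕ) [NeZero N]

/-- Every element of the function field is defined over a number field. -/
theorem exists_fix_elem (y : modularFunctionFieldBar N) :
    ∃ L : IntermediateField ℚ ℚ̄, FiniteDimensional ℚ L ∧ ∀ σ : Γℚ, (∀ a ∈ L, σ a = a) →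
      arithmeticGalois (modularFunctionFieldFull N) σ • y = y := by
  suffices h : ∀ x ∈ modularFunctionFieldBar N, ∃ L : IntermediateField ℚ ℚ̄,
      FiniteDimensional ℚ L ∧ ∀ σ : Γℚ, (∀ a ∈ L, σ a = a) → coeffMap (σ : ℚ̄ →+* ℚ̄) x = x by
    obtain ⟨L, hL, h'⟩ := h y y.2
    exact ⟨L, hL, fun σ hσ => Subtype.ext (h' σ hσ)⟩
  intro x hx
  induction hx using IntermediateField.adjoin_induction with
  | mem x hx =>
    obtain ⟨z, -, rfl⟩ := hx
    exact ⟨⊥, inferInstance, fun σ _ => coeffMap_coeffEmb _ z⟩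
  | algebraMap a =>
    refine ⟨IntermediateField.adjoin ℚ {a}, IntermediateField.adjoin.finiteDimensional
      (AlgebraicClosure.isAlgebraic ℚ |>.isIntegral.isIntegral a), fun σ hσ => ?_⟩
    rw [coeffMap_algebraMap]
    exact congrArg _ (hσ a (IntermediateField.mem_adjoin_simple_self ℚ a))
  | add x y _ _ hx hy =>
    obtain ⟨L, hL, hx⟩ := hx
    obtain ⟨L', hL', hy⟩ := hy
    exact ⟨L ⊔ L', inferInstance, fun σ hσ => by
      rw [map_add, hx σ fun a ha => hσ a (le_sup_left (a := L) ha),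
        hy σ fun a ha => hσ a (le_sup_right (b := L') ha)]⟩
  | inv x _ hx =>
    obtain ⟨L, hL, hx⟩ := hx
    exact ⟨L, hL, fun σ hσ => by rw [map_inv₀, hx σ hσ]⟩
  | mul x y _ _ hx hy =>
    obtain ⟨L, hL, hx⟩ := hx
    obtain ⟨L', hL', hy⟩ := hy
    exact ⟨L ⊔ L', inferInstance, fun σ hσ => by
      rw [map_mul, hx σ fun a ha => hσ a (le_sup_left (a := L) ha),
        hy σ fun a ha => hσ a (le_sup_right (b := L') ha)]⟩

/-- Every place is fixed by an open subgroup. -/
theorem exists_fix_place [HasPrincipalDivisors ℚ̄ (modularFunctionFieldBar N)]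
    (v : Place ℚ̄ (modularFunctionFieldBar N)) :
    ∃ L : IntermediateField ℚ ℚ̄, FiniteDimensional ℚ L ∧ ∀ σ : Γℚ, (∀ a ∈ L, σ a = a) →
      arithmeticGalois (modularFunctionFieldFull N) σ • v = v := by
  classical
  obtain ⟨π, hπ⟩ := IsDiscreteValuationRing.exists_irreducible v.toValuationSubring
  set y : modularFunctionFieldBar N := (π : modularFunctionFieldBar N)
  have hy0 : y ≠ 0 := by simpa [y] using hπ.ne_zero
  have hy1 : v.ord y = 1 := v.ord_coe_irreducible hπ
  obtain ⟨D, hD, -⟩ := HasPrincipalDivisors.exists_divisor (K := ℚ̄) y hy0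
  let S := D.support.erase v
  choose z hzv hzw using fun w : {w // w ∈ S} =>
    exists_mem_notMem_of_ne (v := v) (w := w.1) (Finset.ne_of_mem_erase w.2)
  choose L hL hLfix using exists_fix_elem N
  have : ∀ w : {w // w ∈ S}, FiniteDimensional ℚ (L (z w)) := fun w => hL _
  have := hL y
  refine ⟨L y ⊔ ⨆ w : {w // w ∈ S}, L (z w), inferInstance, fun σ hσ => ?_⟩
  set g := arithmeticGalois (modularFunctionFieldFull N) σ
  have hgy : g • y = y := hLfix y σ fun a ha => hσ a (le_sup_left (a := L y) ha)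
  have hord : (g • v).ord y = 1 := by rw [← hgy, SemilinearAut.ord_smul, hy1]
  by_contra hne
  have hmem : g • v ∈ S := Finset.mem_erase.mpr ⟨hne, Finsupp.mem_support_iff.mpr (by
    rw [hD, hord]; exact one_ne_zero)⟩
  have hgz : g • z ⟨_, hmem⟩ = z ⟨_, hmem⟩ := hLfix _ σ fun a ha =>
    hσ a (le_sup_right (a := L y) (le_iSup (fun w : {w // w ∈ S} => L (z w)) ⟨_, hmem⟩ ha))
  apply hzw ⟨_, hmem⟩
  rw [← hgz]
  exact ValuationSubring.smul_mem_pointwise_smul g _ _ (hzv ⟨_, hmem⟩)

/-- Every divisor class is fixed by an open subgroup. -/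
theorem exists_fix_class [HasPrincipalDivisors ℚ̄ (modularFunctionFieldBar N)] (x : JZero N) :
    ∃ L : IntermediateField ℚ ℚ̄, FiniteDimensional ℚ L ∧ ∀ σ : Γℚ, (∀ a ∈ L, σ a = a) →
      σ • x = x := by
  classical
  obtain ⟨D, rfl⟩ := Pic0.mk_surjective x
  choose L hL hLfix using exists_fix_place N
  have : ∀ v : {v // v ∈ (D : Divisor ℚ̄ (modularFunctionFieldBar N)).support},
      FiniteDimensional ℚ (L v.1) := fun v => hL _
  refine ⟨⨆ v : {v // v ∈ (D : Divisor ℚ̄ (modularFunctionFieldBar N)).support}, L v.1,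
    inferInstance, fun σ hσ => ?_⟩
  rw [galois_smul_pic0_def, SemilinearAut.pic0_smul_mk]
  refine congrArg Pic0.mk (Subtype.ext ?_)
  rw [SemilinearAut.coe_degZeroSMulHom, SemilinearAut.divisor_smul_def]
  refine (Finsupp.mapDomain_congr fun v hv => ?_).trans Finsupp.mapDomain_id
  exact hLfix v σ fun a ha => hσ a
    (le_iSup (fun w : {v // v ∈ (D : Divisor ℚ̄ (modularFunctionFieldBar N)).support} => L w.1)
      ⟨v, hv⟩ ha)

end FLTAgent.Reps
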