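import Fermat.Agent.Reps.Inputs
import Fermat.Agent.Reps.Model
import Fermat.Agent.Reps.OpenStab
import Fermat.Agent.GalCommon.Basic
import Fermat.Agent.ModularPlaces.Fields

/-!
# The Galois model from period coordinates

`coordTors` identifies the `n`-torsion of `J₀(N)` with `(ℤ/n) ^ r` through the periods. In these
coordinates Galois acts by the matrices `galMat`, compatible in `n` and commuting with the Hecke
matrices; their limit `tateMat` gives `galModel N p : GalModel N p`. `galModel_coord` says that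
its reductions are the action on torsion, `galModel_cc` describes complex conjugation.
-/

set_option autoImplicit false

noncomputable section

open AlgebraicCurve ModularCurve ModularCurve.Period CongruenceSubgroup Matrix

namespace FLTAgent.Reps

local notation "ℚ̄" => AlgebraicClosure ℚ
local notation "Γℚ" => (AlgebraicClosure ℚ ≃ₐ[ℚ] AlgebraicClosure ℚ)

/-- The embedding of `ℚ̄` into `ℂ` used for all coordinates. -/
def qbarEmb : Torsion.Qb →+* ℂ :=
  haveI : Normal ℚ (AlgebraicClosure ℚ) := GalCommon.normal_Qbar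
  (IsAlgClosed.lift : AlgebraicClosure ℚ →ₐ[ℚ] ℂ).toRingHom

variable (N : ℕ) [NeZero N]

/-- `n`-torsion of `J₀(N)`. -/
abbrev tors (n : ℕ) : AddSubgroup (JZero N) := Pic0.torsion ℚ̄ (modularFunctionFieldBar N) n

/-- Coordinates of `n`-torsion. -/
def coordTors (n : ℕ) [NeZero n] : tors N n ≃+ (Fin (Period.rankH N) → ZMod n) :=
  (HeckeH.heckeTorsionEquiv N qbarEmb n).trans (Period.evalEquiv N (ZMod n) (ZMod n)).toAddEquiv

theorem coordTors_apply (n : ℕ) [NeZero n] (x : tors N n) :
    coordTors N n x = Period.evalEquiv N (ZMod n) (ZMod n)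
      (HeckeH.wH N (ZMod n) (ZMod n) (Torsion.jTorsionEquiv N qbarEmb n x)) := rfl

theorem evalEquiv_matAct_mulVec (R : Type*) [CommRing R] (M : HeckeH.HMat N)
    (φ : Period.H N R R) :
    Period.evalEquiv N R R (HeckeH.matAct N R R M φ) =
      (Int.castRingHom R).mapMatrix M *ᵥ Period.evalEquiv N R R φ := by
  funext i
  rw [HeckeH.evalEquiv_matAct]
  simp [Matrix.mulVec, dotProduct]

/-- The Hecke operator at `ℓ` in the full Hecke algebra. -/
def heckeGenOf (ℓ : Nat.Primes) : TZ N :=
  open Classical in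
  if h : (ℓ : ℕ) ∣ N then
    CuspForm.heckeAlgebra.U (k := 2) (S := (∅ : Set ℕ)) ℓ.2 h (Set.notMem_empty _)
  else heckeTOf ℓ.2 h

theorem heckeGenOf_T {ℓ : ℕ} (hℓ : ℓ.Prime) (hℓN : ¬ ℓ ∣ N) :
    heckeGenOf N ⟨ℓ, hℓ⟩ = heckeTOf hℓ hℓN := by
  simp [heckeGenOf, hℓN]

theorem heckeEnd_heckeGenOf (ℓ : Nat.Primes) (R A : Type*) [Semiring R] [AddCommGroup A]
    [Module R A] :
    HeckeH.heckeEnd N R A (heckeGenOf N ℓ) = HeckeH.heckeH N ℓ.2 R A := by
  by_cases h : (ℓ : ℕ) ∣ N
  · rw [heckeGenOf, dif_pos h]; exact HeckeH.heckeEnd_U N ℓ.2 h _ R A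
  · rw [heckeGenOf, dif_neg h]; exact HeckeH.heckeEnd_T N ℓ.2 h _ R A

theorem coordTors_hecke (n : ℕ) [NeZero n] (ℓ : Nat.Primes) (x : tors N n) :
    coordTors N n ⟨heckeOperatorBar N ℓ (x : JZero N), heckeOperatorBar_mem_torsion N ℓ x.2⟩ =
      (Int.castRingHom (ZMod n)).mapMatrix (HeckeH.heckeMatHom N (heckeGenOf N ℓ)) *ᵥ
        coordTors N n x := by
  rw [coordTors_apply, coordTors_apply, jTorsionEquiv_heckeOperatorBar, HeckeH.wH_heckeHT,
    ← heckeEnd_heckeGenOf N ℓ]
  exact evalEquiv_matAct_mulVec N _ _ _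

/-- A complex conjugation in `Gal(ℚ̄/ℚ)`. -/
def complexConj : Γℚ := (Torsion.exists_complexConj qbarEmb).choose

theorem complexConj_mul_self : complexConj * complexConj = 1 :=
  (Torsion.exists_complexConj qbarEmb).choose_spec.1

theorem coordTors_conj (n : ℕ) [NeZero n] (x : tors N n) :
    coordTors N n (JZero.torsionGaloisRep N n complexConj x) =
      -((Int.castRingHom (ZMod n)).mapMatrix (HeckeH.jMat N) *ᵥ coordTors N n x) := by
  have h : Torsion.jTorsionEquiv N qbarEmb n (JZero.torsionGaloisRep N n complexConj x) =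
      -HeckeH.jH N (ZMod n) (ZMod n) (Torsion.jTorsionEquiv N qbarEmb n x) := Subtype.ext
    (Torsion.jTorsionEquiv_conj qbarEmb complexConj
      (Torsion.exists_complexConj qbarEmb).choose_spec.2 x)
  rw [coordTors_apply, coordTors_apply, h, map_neg, map_neg, HeckeH.wH_jH, ← HeckeH.matAct_jMat,
    evalEquiv_matAct_mulVec]

theorem coordTors_nsmul {k n : ℕ} [NeZero k] [NeZero n] (x : tors N (k * n))
    (hx : k • (x : JZero N) ∈ tors N n) :
    coordTors N n ⟨k • (x : JZero N), hx⟩ =
      fun i => ZMod.castHom (dvd_mul_left n k) (ZMod n) (coordTors N (k * n) x i) := by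
  funext i
  rw [coordTors_apply, coordTors_apply, Period.evalEquiv_apply, Period.evalEquiv_apply,
    HeckeH.wH_apply, HeckeH.wH_apply, Torsion.jTorsionEquiv_nsmul]
  rfl

/-- Transport of a representation along an additive equivalence of `ℤ/n`-modules. -/
def transportRep {n : ℕ} {G A B : Type*} [Monoid G] [AddCommGroup A] [Module (ZMod n) A]
    [AddCommGroup B] [Module (ZMod n) B] (e : A ≃+ B) (ρ : G →* Module.End (ZMod n) A) :
    G →* Module.End (ZMod n) B :=
  (LinearEquiv.conjAlgEquiv (ZMod n)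
    (e.toLinearEquiv (ZMod.map_smul e.toAddMonoidHom))).toMonoidHom.comp ρ

theorem transportRep_apply {n : ℕ} {G A B : Type*} [Monoid G] [AddCommGroup A]
    [Module (ZMod n) A] [AddCommGroup B] [Module (ZMod n) B] (e : A ≃+ B)
    (ρ : G →* Module.End (ZMod n) A) (g : G) (x : A) :
    transportRep e ρ g (e x) = e (ρ g x) := by
  show e (ρ g (e.symm (e x))) = _
  rw [AddEquiv.symm_apply_apply]

section Galois

variable (n : ℕ) [NeZero n]

/-- Galois action in coordinates. -/
def galCoord : Γℚ →* Module.End (ZMod n) (Fin (Period.rankH N) → ZMod n) :=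
  transportRep (coordTors N n) (JZero.torsionGaloisRep N n)

/-- Galois matrices modulo `n`. -/
def galMat : Γℚ →* Matrix (Fin (Period.rankH N)) (Fin (Period.rankH N)) (ZMod n) :=
  (LinearMap.toMatrixAlgEquiv' (R := ZMod n) (n := Fin (Period.rankH N))).toMonoidHom.comp
    (galCoord N n)

theorem galMat_mulVec (σ : Γℚ) (x : tors N n) :
    galMat N n σ *ᵥ coordTors N n x = coordTors N n (JZero.torsionGaloisRep N n σ x) := by
  have h : Matrix.toLinAlgEquiv' (galMat N n σ) = galCoord N n σ :=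
    Matrix.toLinAlgEquiv'_toMatrixAlgEquiv' _
  have h2 := LinearMap.congr_fun h (coordTors N n x)
  rw [Matrix.toLinAlgEquiv'_apply] at h2
  rw [h2]
  exact transportRep_apply (coordTors N n) (JZero.torsionGaloisRep N n) σ x

theorem ext_mulVec {A B : Matrix (Fin (Period.rankH N)) (Fin (Period.rankH N)) (ZMod n)}
    (h : ∀ x : tors N n, A *ᵥ coordTors N n x = B *ᵥ coordTors N n x) : A = B := by
  apply Matrix.toLin'.injective
  refine LinearMap.ext fun v => ?_
  obtain ⟨x, rfl⟩ := (coordTors N n).surjective v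
  simpa using h x

theorem galMat_commute (σ : Γℚ) (t : TZ N) :
    Commute (galMat N n σ) ((Int.castRingHom (ZMod n)).mapMatrix (HeckeH.heckeMatHom N t)) := by
  obtain ⟨t, ht⟩ := t
  induction ht using Algebra.adjoin_induction with
  | mem x hx =>
    obtain ⟨ℓ, hℓ⟩ : ∃ ℓ : Nat.Primes, (⟨x, Algebra.subset_adjoin hx⟩ : TZ N) = heckeGenOf N ℓ := by
      rcases hx with ⟨ℓ, hℓ, hℓN, -, rfl⟩ | ⟨q, hqN, hq, -, rfl⟩
      · exact ⟨⟨ℓ, hℓ⟩, (heckeGenOf_T N hℓ hℓN).symm⟩
      · exact ⟨⟨q, hq⟩, by simp [heckeGenOf, hqN]; rfl⟩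
    rw [hℓ]
    refine ext_mulVec N n fun y => ?_
    rw [← Matrix.mulVec_mulVec, ← Matrix.mulVec_mulVec, ← coordTors_hecke, galMat_mulVec,
      galMat_mulVec, ← coordTors_hecke]
    exact congrArg _ (Subtype.ext (galois_smul_heckeOperatorBar N σ ℓ y))
  | algebraMap r =>
    rw [show (⟨algebraMap ℤ _ r, _⟩ : TZ N) = (r : TZ N) from
      Subtype.ext (by simp)]
    rw [map_intCast, map_intCast]
    exact Int.commute_cast _ r
  | add x y hx hy hx' hy' =>
    rw [show (⟨x + y, _⟩ : TZ N) = ⟨x, hx⟩ + ⟨y, hy⟩ from rfl, map_add, map_add]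
    exact hx'.add_right hy'
  | mul x y hx hy hx' hy' =>
    rw [show (⟨x * y, _⟩ : TZ N) = ⟨x, hx⟩ * ⟨y, hy⟩ from rfl, map_mul, map_mul]
    exact hx'.mul_right hy'

theorem galMat_complexConj :
    galMat N n complexConj = -(Int.castRingHom (ZMod n)).mapMatrix (HeckeH.jMat N) := by
  refine ext_mulVec N n fun x => ?_
  rw [galMat_mulVec, coordTors_conj, Matrix.neg_mulVec]

theorem exists_level_galMat : ∃ L : IntermediateField ℚ ℚ̄, FiniteDimensional ℚ L ∧
    ∀ σ : Γℚ, (∀ a ∈ L, σ a = a) → galMat N n σ = 1 := by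
  choose L hL hfix using exists_fix_class N
  have := Torsion.jTorsion_finite (N := N) n
  have : ∀ x : tors N n, FiniteDimensional ℚ (L (x : JZero N)) := fun x => hL _
  refine ⟨⨆ x : tors N n, L (x : JZero N), inferInstance, fun σ hσ => ?_⟩
  refine ext_mulVec N n fun x => ?_
  rw [galMat_mulVec, Matrix.one_mulVec]
  exact congrArg _ (Subtype.ext (hfix x σ fun a ha =>
    hσ a (le_iSup (fun x : tors N n => L (x : JZero N)) x ha)))

end Galois

theorem galMat_castHom {k n : ℕ} [NeZero k] [NeZero n] (σ : Γℚ) :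
    (ZMod.castHom (dvd_mul_left n k) (ZMod n)).mapMatrix (galMat N (k * n) σ) = galMat N n σ := by
  refine ext_mulVec N n fun y => ?_
  have hs : Function.Surjective (ZMod.castHom (dvd_mul_left n k) (ZMod n)) :=
    ZMod.ringHom_surjective _
  choose v hv using fun i => hs (coordTors N n y i)
  obtain ⟨x, hxv⟩ := (coordTors N (k * n)).surjective v
  have hx : k • (x : JZero N) ∈ tors N n := by
    rw [Pic0.mem_torsion, ← natCast_zsmul, smul_smul, mul_comm]
    exact_mod_cast Pic0.mem_torsion.mp x.2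
  have hy : coordTors N n y = coordTors N n ⟨k • (x : JZero N), hx⟩ := by
    rw [coordTors_nsmul, hxv]
    funext i
    exact (hv i).symm
  have hσx : k • ((JZero.torsionGaloisRep N (k * n) σ x : tors N (k * n)) : JZero N) ∈ tors N n := by
    rw [Pic0.mem_torsion, ← natCast_zsmul, smul_smul, mul_comm]
    exact_mod_cast Pic0.mem_torsion.mp (JZero.torsionGaloisRep N (k * n) σ x).2
  rw [hy, galMat_mulVec, show JZero.torsionGaloisRep N n σ ⟨k • (x : JZero N), hx⟩ =
      ⟨k • ((JZero.torsionGaloisRep N (k * n) σ x : tors N (k * n)) : JZero N), hσx⟩ from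
    Subtype.ext (map_nsmul (DistribSMul.toAddMonoidHom (JZero N) σ) k (x : JZero N)),
    coordTors_nsmul, coordTors_nsmul, ← galMat_mulVec]
  funext i
  exact (RingHom.map_mulVec (ZMod.castHom (dvd_mul_left n k) (ZMod n)) _ _ i).symm

theorem galMat_castHom' {k n n' : ℕ} [NeZero k] [NeZero n] [NeZero n'] (h : n' = k * n)
    (hd : n ∣ n') (σ : Γℚ) :
    (ZMod.castHom hd (ZMod n)).mapMatrix (galMat N n' σ) = galMat N n σ := by
  subst h
  exact galMat_castHom N σ

section Padic

variable (p : ℕ) [Fact p.Prime]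

instance neZero_prime_pow (m : ℕ) : NeZero (p ^ m) := ⟨pow_ne_zero m (Fact.out : p.Prime).ne_zero⟩

instance neZero_prime : NeZero p := ⟨(Fact.out : p.Prime).ne_zero⟩

theorem dvd_galMat_succ_sub (σ : Γℚ) (i j : Fin (Period.rankH N)) (m : ℕ) :
    (p : ℤ) ^ m ∣ ((galMat N (p ^ (m + 1)) σ i j).val : ℤ) - ((galMat N (p ^ m) σ i j).val : ℤ) := by
  rw [← Nat.cast_pow, ← ZMod.intCast_zmod_eq_zero_iff_dvd, Int.cast_sub, Int.cast_natCast,
    Int.cast_natCast, ZMod.natCast_zmod_val, sub_eq_zero,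
    ← map_natCast (ZMod.castHom (pow_dvd_pow p m.le_succ) (ZMod (p ^ m))) , ZMod.natCast_zmod_val]
  exact congrFun (congrFun (galMat_castHom' N (k := p) (n := p ^ m) (pow_succ' p m)
    (pow_dvd_pow p m.le_succ) σ) i) j

/-- The `p`-adic Galois matrices. -/
def tateMat (σ : Γℚ) : Matrix (Fin (Period.rankH N)) (Fin (Period.rankH N)) ℤ_[p] :=
  Matrix.of fun i j => PadicInt.ofIntSeq _ (PadicInt.isCauSeq_padicNorm_of_pow_dvd_sub
    (fun m => ((galMat N (p ^ m) σ i j).val : ℤ)) p (dvd_galMat_succ_sub N p σ i j))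

theorem toZModPow_tateMat (m : ℕ) (σ : Γℚ) :
    (PadicInt.toZModPow m).mapMatrix (tateMat N p σ) = galMat N (p ^ m) σ := by
  ext i j
  refine (PadicInt.toZModPow_ofIntSeq_of_pow_dvd_sub _ p (dvd_galMat_succ_sub N p σ i j) m).trans ?_
  rw [Int.cast_natCast, ZMod.natCast_zmod_val]

variable {N p} in
theorem padicMatrix_ext {A B : Matrix (Fin (Period.rankH N)) (Fin (Period.rankH N)) ℤ_[p]}
    (h : ∀ m, (PadicInt.toZModPow m).mapMatrix A = (PadicInt.toZModPow m).mapMatrix B) : A = B := by
  ext i j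
  exact PadicInt.ext_of_toZModPow.mp fun m => congrFun (congrFun (h m) i) j

theorem toZModPow_intMat (m : ℕ) (M : HeckeH.HMat N) :
    (PadicInt.toZModPow m).mapMatrix ((Int.castRingHom ℤ_[p]).mapMatrix M) =
      (Int.castRingHom (ZMod (p ^ m))).mapMatrix M := by
  ext i j
  simp

/-- The canonical Galois model of the Tate module. -/
def galModel : GalModel N p where
  r := Period.rankH N
  τ := HeckeH.heckeMatHom N
  τ_injective := HeckeH.heckeMatHom_injective N
  M :=
    { toFun := tateMat N p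
      map_one' := padicMatrix_ext fun m => by rw [toZModPow_tateMat, map_one, map_one]
      map_mul' := fun σ τ => padicMatrix_ext fun m => by
        rw [map_mul, toZModPow_tateMat, toZModPow_tateMat, toZModPow_tateMat, map_mul] }
  continuous_level := fun m => by
    obtain ⟨L, hL, h⟩ := exists_level_galMat N (p ^ m)
    exact ⟨L, hL, fun σ hσ => (toZModPow_tateMat N p m σ).trans (h σ hσ)⟩
  commute_hecke := fun σ t => padicMatrix_ext fun m => by
    rw [map_mul, map_mul]
    show (PadicInt.toZModPow m).mapMatrix (tateMat N p σ) * _ =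
      _ * (PadicInt.toZModPow m).mapMatrix (tateMat N p σ)
    rw [toZModPow_tateMat, toZModPow_intMat]
    exact galMat_commute N (p ^ m) σ t
  frobenius_rel := fun ℓ hℓ hℓN hℓp A hA σ hσ => padicMatrix_ext fun m => by
    show (PadicInt.toZModPow m).mapMatrix (tateMat N p σ * tateMat N p σ -
      (Int.castRingHom ℤ_[p]).mapMatrix (HeckeH.heckeMatHom N (heckeTOf hℓ hℓN)) *
        tateMat N p σ + (ℓ : Matrix _ _ ℤ_[p])) = _
    rw [map_zero, map_add, map_sub, map_mul, map_mul, map_natCast, toZModPow_tateMat,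
      toZModPow_intMat, ← heckeGenOf_T N hℓ hℓN]
    refine ext_mulVec N (p ^ m) fun x => ?_
    rw [Matrix.add_mulVec, Matrix.sub_mulVec, Matrix.zero_mulVec, ← Matrix.mulVec_mulVec,
      ← Matrix.mulVec_mulVec, galMat_mulVec, galMat_mulVec, ← coordTors_hecke,
      Matrix.natCast_mulVec, Nat.cast_smul_eq_nsmul, ← map_nsmul, ← map_sub, ← map_add,
      ← map_zero (coordTors N (p ^ m))]
    exact congrArg _ (Subtype.ext
      (frobenius_rel_torsion N (Fact.out : p.Prime) hℓ hℓN hℓp hA hσ x.2))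
  inertia_trivial := fun q hq hqN hqp A hA σ hσ => padicMatrix_ext fun m => by
    show (PadicInt.toZModPow m).mapMatrix (tateMat N p σ) = _
    rw [toZModPow_tateMat, map_one]
    refine ext_mulVec N (p ^ m) fun x => ?_
    rw [galMat_mulVec, Matrix.one_mulVec]
    exact congrArg _ (Subtype.ext (inertia_smul_torsion N (Fact.out : p.Prime) hq hqN hqp hA hσ x.2))
  cc := complexConj
  cc_mul_self := complexConj_mul_self
  finrank_eigen := fun K _ _ χ => by
    rw [show eigenSub (fun t => (Int.castRingHom K).mapMatrix (HeckeH.heckeMatHom N t)) χ =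
      HeckeH.famEigen (HeckeH.heckeFam N) χ from Submodule.ext fun v => mem_eigenSub]
    exact HeckeH.finrank_famEigen N χ
  exists_plus := fun K _ _ χ f => by
    obtain ⟨v, hv0, hv, hjv⟩ := HeckeH.exists_eigen_sign N χ (e := -1) (Or.inr rfl)
    refine ⟨v, mem_eigenSub.mpr hv, hv0, ?_⟩
    have hc : tateMat N p complexConj = -(Int.castRingHom ℤ_[p]).mapMatrix (HeckeH.jMat N) :=
      padicMatrix_ext fun m => by
        rw [toZModPow_tateMat, galMat_complexConj, map_neg, toZModPow_intMat]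
    show f.mapMatrix (tateMat N p complexConj) *ᵥ v = v
    rw [hc, map_neg, Matrix.neg_mulVec,
      show f.mapMatrix ((Int.castRingHom ℤ_[p]).mapMatrix (HeckeH.jMat N)) =
        (HeckeH.jMat N).map (Int.cast : ℤ → K) from by ext i j; simp, hjv]
    simp
  exists_minus := fun K _ _ χ f => by
    obtain ⟨v, hv0, hv, hjv⟩ := HeckeH.exists_eigen_sign N χ (e := 1) (Or.inl rfl)
    refine ⟨v, mem_eigenSub.mpr hv, hv0, ?_⟩
    have hc : tateMat N p complexConj = -(Int.castRingHom ℤ_[p]).mapMatrix (HeckeH.jMat N) :=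
      padicMatrix_ext fun m => by
        rw [toZModPow_tateMat, galMat_complexConj, map_neg, toZModPow_intMat]
    show f.mapMatrix (tateMat N p complexConj) *ᵥ v = -v
    rw [hc, map_neg, Matrix.neg_mulVec,
      show f.mapMatrix ((Int.castRingHom ℤ_[p]).mapMatrix (HeckeH.jMat N)) =
        (HeckeH.jMat N).map (Int.cast : ℤ → K) from by ext i j; simp, hjv]
    simp

/-- The Galois matrices are the action on torsion in the coordinates `coordTors`. -/
theorem galModel_coord (m : ℕ) (σ : Γℚ) (x : tors N (p ^ m)) :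
    coordTors N (p ^ m) (JZero.torsionGaloisRep N (p ^ m) σ x) =
      (PadicInt.toZModPow m).mapMatrix ((galModel N p).M σ) *ᵥ coordTors N (p ^ m) x := by
  show _ = (PadicInt.toZModPow m).mapMatrix (tateMat N p σ) *ᵥ coordTors N (p ^ m) x
  rw [toZModPow_tateMat, galMat_mulVec]

/-- Complex conjugation is minus the matrix of `jH`. -/
theorem galModel_cc :
    (galModel N p).M (galModel N p).cc = -(Int.castRingHom ℤ_[p]).mapMatrix (HeckeH.jMat N) :=
  padicMatrix_ext fun m => by
    show (PadicInt.toZModPow m).mapMatrix (tateMat N p complexConj) = _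
    rw [toZModPow_tateMat, galMat_complexConj, map_neg, toZModPow_intMat]

end Padic

end FLTAgent.Reps
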