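import Mathlib
import Fermat.Agent.GalCommon.Frobenius

/-!
# The `p`-adic cyclotomic character

`cyc p` is the cyclotomic character of `Gal(ℚ̄/ℚ)` with values in `ℤ_[p]` and `cycMod p m` its
reduction modulo `p ^ m`, which factors through a finite level (`exists_level_cycMod`). Its values
on Frobenius and inertia elements away from `p` are `cyc_frobenius` and `cyc_inertia`. `padicHom`
is the canonical map `ℤ_[p] →+* T` into a ring complete for an ideal containing `p`.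
-/

set_option autoImplicit false

noncomputable section

namespace FLTAgent.Reps

local notation "ℚ̄" => AlgebraicClosure ℚ
local notation "Γℚ" => (AlgebraicClosure ℚ ≃ₐ[ℚ] AlgebraicClosure ℚ)

section Char

variable (p : ℕ) [Fact p.Prime]

instance hasEnoughRootsOfUnity_pow (i : ℕ) :
    HasEnoughRootsOfUnity ℚ̄ (p ^ i) :=
  have : NeZero (((p ^ i : ℕ) : ℚ̄)) :=
    ⟨Nat.cast_ne_zero.mpr (pow_ne_zero i (Fact.out : p.Prime).ne_zero)⟩
  IsSepClosed.hasEnoughRootsOfUnity _ _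

/-- The `p`-adic cyclotomic character. -/
def cyc : Γℚ →* ℤ_[p] :=
  (Units.coeHom ℤ_[p]).comp ((cyclotomicCharacter ℚ̄ p).comp
    (MulSemiringAction.toRingAut Γℚ ℚ̄))

/-- Its reduction modulo `p ^ m`. -/
def cycMod (m : ℕ) : Γℚ →* ZMod (p ^ m) :=
  (PadicInt.toZModPow m).toMonoidHom.comp (cyc p)

theorem cycMod_spec (m : ℕ) (σ : Γℚ) {ζ : ℚ̄} (hζ : ζ ^ p ^ m = 1) :
    σ ζ = ζ ^ (cycMod p m σ).val :=
  cyclotomicCharacter.spec p (MulSemiringAction.toRingAut Γℚ ℚ̄ σ) ζ hζ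

variable {p}

theorem cycMod_eq_of_spec (m : ℕ) (σ : Γℚ) {j : ℕ}
    (h : ∀ ζ : ℚ̄, ζ ^ p ^ m = 1 → σ ζ = ζ ^ j) : cycMod p m σ = j := by
  obtain ⟨ζ, hζ⟩ := HasEnoughRootsOfUnity.exists_primitiveRoot ℚ̄ (p ^ m)
  have : NeZero (p ^ m) := ⟨pow_ne_zero m (Fact.out : p.Prime).ne_zero⟩
  have h1 := (cycMod_spec p m σ hζ.pow_eq_one).symm.trans (h ζ hζ.pow_eq_one)
  have hfin : IsOfFinOrder ζ := isOfFinOrder_iff_pow_eq_one.mpr ⟨p ^ m, NeZero.pos _, hζ.pow_eq_one⟩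
  rw [hfin.pow_eq_pow_iff_modEq, ← hζ.eq_orderOf, ← ZMod.natCast_eq_natCast_iff,
    ZMod.natCast_zmod_val] at h1
  exact h1

theorem exists_level_cycMod (m : ℕ) : ∃ L : IntermediateField ℚ ℚ̄, FiniteDimensional ℚ L ∧
    ∀ σ : Γℚ, (∀ x ∈ L, σ x = x) → cycMod p m σ = 1 := by
  obtain ⟨ζ, hζ⟩ := HasEnoughRootsOfUnity.exists_primitiveRoot ℚ̄ (p ^ m)
  have : NeZero (p ^ m) := ⟨pow_ne_zero m (Fact.out : p.Prime).ne_zero⟩
  refine ⟨IntermediateField.adjoin ℚ {ζ}, IntermediateField.adjoin.finiteDimensional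
    ((hζ.isIntegral (NeZero.pos _)).tower_top), fun σ hσ => ?_⟩
  rw [← Nat.cast_one]
  refine cycMod_eq_of_spec m σ fun ξ hξ => ?_
  obtain ⟨i, -, rfl⟩ := hζ.eq_pow_of_pow_eq_one hξ
  rw [map_pow, hσ ζ (IntermediateField.mem_adjoin_simple_self ℚ ζ), pow_one]

theorem cyc_frobenius {ℓ : ℕ} (hℓ : ℓ.Prime) (hℓp : ℓ ≠ p) {A : ValuationSubring ℚ̄}
    (hA : A.LiesOverPrime ℓ) {σ : Γℚ} (hσ : A.IsFrobeniusAt σ ℓ) : cyc p σ = ℓ := by
  refine PadicInt.ext_of_toZModPow.mp fun m => ?_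
  rw [map_natCast]
  refine cycMod_eq_of_spec m σ fun ζ hζ => ?_
  exact GalCommon.frobenius_apply_of_pow_eq_one hℓ hA
    (fun h => hℓp ((Nat.prime_dvd_prime_iff_eq hℓ Fact.out).mp (hℓ.dvd_of_dvd_pow h))) hσ hζ

theorem cyc_inertia {q : ℕ} (hq : q.Prime) (hqp : q ≠ p) {A : ValuationSubring ℚ̄}
    (hA : A.LiesOverPrime q) {σ : Γℚ} (hσ : σ ∈ A.inertiaSubgroupIn ℚ) : cyc p σ = 1 := by
  refine PadicInt.ext_of_toZModPow.mp fun m => ?_
  rw [map_one, ← Nat.cast_one]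
  refine cycMod_eq_of_spec m σ fun ζ hζ => ?_
  rw [pow_one]
  exact GalCommon.inertia_apply_of_pow_eq_one hq hA
    (fun h => hqp ((Nat.prime_dvd_prime_iff_eq hq Fact.out).mp (hq.dvd_of_dvd_pow h))) hσ hζ

end Char

section PadicHom

variable {p : ℕ} [Fact p.Prime] {T : Type*} [CommRing T]

/-- `ℤ/p^m → T/I^m` when `p ∈ I`. -/
def zmodToQuot (I : Ideal T) (hp : (p : T) ∈ I) (m : ℕ) : ZMod (p ^ m) →+* T ⧸ I ^ m :=
  ZMod.castHom (m := ringChar (T ⧸ I ^ m)) (ringChar.dvd (by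
    rw [Nat.cast_pow, ← map_natCast (Ideal.Quotient.mk (I ^ m)), ← map_pow,
      Ideal.Quotient.eq_zero_iff_mem]
    exact Ideal.pow_mem_pow hp m)) (T ⧸ I ^ m)

theorem factorPow_comp_zmodToQuot (I : Ideal T) (hp : (p : T) ∈ I) {m n : ℕ} (h : m ≤ n) :
    (Ideal.Quotient.factorPow I h).comp ((zmodToQuot I hp n).comp (PadicInt.toZModPow n)) =
      (zmodToQuot I hp m).comp (PadicInt.toZModPow m) := by
  rw [← RingHom.comp_assoc, RingHom.ext_zmod ((Ideal.Quotient.factorPow I h).comp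
      (zmodToQuot I hp n)) ((zmodToQuot I hp m).comp (ZMod.castHom (pow_dvd_pow p h) _)),
    RingHom.comp_assoc, PadicInt.zmod_cast_comp_toZModPow m n h]

/-- The structure map `ℤ_p → T` of a complete ring. -/
def padicHom (I : Ideal T) [IsAdicComplete I T] (hp : (p : T) ∈ I) : ℤ_[p] →+* T :=
  IsAdicComplete.liftRingHom I (fun m => (zmodToQuot I hp m).comp (PadicInt.toZModPow m))
    fun h => factorPow_comp_zmodToQuot I hp h

theorem mk_padicHom (I : Ideal T) [IsAdicComplete I T] (hp : (p : T) ∈ I) (m : ℕ) (x : ℤ_[p]) :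
    Ideal.Quotient.mk (I ^ m) (padicHom I hp x) = zmodToQuot I hp m (PadicInt.toZModPow m x) :=
  IsAdicComplete.mk_liftRingHom I _ _ m x

end PadicHom

end FLTAgent.Reps
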