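import Mathlib

/-!
# Power sums and rank two Cayley-Hamilton

`luc a d k` is `x ^ k + y ^ k` as a polynomial in `a = x + y` and `d = x * y`
(`pow_add_pow_eq_luc`, for commuting `x`, `y` in any ring). For an endomorphism of a free module of
rank two this gives the characteristic polynomial from trace and determinant
(`charpoly_of_finrank_eq_two`) and the trace of its powers (`trace_pow_eq_luc`).
-/

set_option autoImplicit false

noncomputable section

open Polynomial

namespace FLTAgent.Reps

/-- `x ^ k + y ^ k` as a polynomial in `a = x + y`, `d = x * y`. -/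
def luc {R : Type*} [CommRing R] (a d : R) : ℕ → R
  | 0 => 2
  | 1 => a
  | n + 2 => a * luc a d (n + 1) - d * luc a d n

theorem map_luc {R S : Type*} [CommRing R] [CommRing S] (f : R →+* S) (a d : R) :
    ∀ k, f (luc a d k) = luc (f a) (f d) k
  | 0 => map_ofNat f 2
  | 1 => rfl
  | n + 2 => by simp only [luc, map_sub, map_mul, map_luc f a d (n + 1), map_luc f a d n]

theorem pow_add_pow_eq_luc {R A : Type*} [CommRing R] [Ring A] (f : R →+* A) {x y : A} {a d : R}
    (hc : Commute x y) (hs : x + y = f a) (hp : x * y = f d) :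
    ∀ k, x ^ k + y ^ k = f (luc a d k)
  | 0 => by simp [luc, map_ofNat, one_add_one_eq_two]
  | 1 => by simpa [luc] using hs
  | n + 2 => by
    rw [luc, map_sub, map_mul, map_mul, ← pow_add_pow_eq_luc f hc hs hp (n + 1),
      ← pow_add_pow_eq_luc f hc hs hp n, ← hs, ← hp]
    have h1 : x * y * x ^ n = y * x ^ (n + 1) := by
      rw [hc.eq, mul_assoc, pow_succ']
    have h2 : x * y * y ^ n = x * y ^ (n + 1) := by
      rw [mul_assoc, pow_succ']
    rw [add_mul, mul_add, mul_add, mul_add, h1, h2, ← pow_succ' x, ← pow_succ' y]
    abel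

section Rank2

variable {R V : Type*} [CommRing R] [Nontrivial R] [AddCommGroup V] [Module R V] [Module.Free R V]
  [Module.Finite R V]

theorem charpoly_of_finrank_eq_two (h : Module.finrank R V = 2) (f : V →ₗ[R] V) :
    f.charpoly = X ^ 2 - C (LinearMap.trace R V f) * X + C (LinearMap.det f) := by
  classical
  let b := Module.finBasisOfFinrankEq R V h
  rw [← LinearMap.charpoly_toMatrix f b, Matrix.charpoly_fin_two, LinearMap.trace_eq_matrix_trace R b f,
    LinearMap.det_toMatrix]

theorem trace_det_of_charpoly_eq (h : Module.finrank R V = 2) {f : V →ₗ[R] V} {a d : R}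
    (hf : f.charpoly = X ^ 2 - C a * X + C d) :
    LinearMap.trace R V f = a ∧ LinearMap.det f = d := by
  rw [charpoly_of_finrank_eq_two h] at hf
  refine ⟨?_, ?_⟩
  · have := congrArg (fun P => Polynomial.coeff P 1) hf
    simpa [coeff_X_pow] using this
  · have := congrArg (fun P => Polynomial.coeff P 0) hf
    simpa using this

theorem trace_pow_eq_luc (h : Module.finrank R V = 2) (f : V →ₗ[R] V) :
    ∀ k, LinearMap.trace R V (f ^ k) = luc (LinearMap.trace R V f) (LinearMap.det f) k
  | 0 => by
    rw [pow_zero, show (1 : Module.End R V) = LinearMap.id from rfl, LinearMap.trace_id, h]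
    simp [luc]
  | 1 => by rw [pow_one]; rfl
  | n + 2 => by
    have hch : f ^ 2 - LinearMap.trace R V f • f + LinearMap.det f • (1 : Module.End R V) = 0 := by
      have := LinearMap.aeval_self_charpoly f
      rw [charpoly_of_finrank_eq_two h] at this
      simpa [Algebra.smul_def] using this
    have h2 : f ^ (n + 2) =
        LinearMap.trace R V f • f ^ (n + 1) - LinearMap.det f • f ^ n := by
      have h3 : f ^ n * (f ^ 2 - LinearMap.trace R V f • f + LinearMap.det f • (1 : Module.End R V))
          = 0 := by rw [hch, mul_zero]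
      rw [mul_add, mul_sub, mul_smul_comm, mul_smul_comm, mul_one, ← pow_add, ← pow_succ,
        sub_add_eq_add_sub, sub_eq_zero] at h3
      rw [eq_sub_iff_add_eq]
      exact h3
    rw [h2, map_sub, map_smul, map_smul, trace_pow_eq_luc h f (n + 1), trace_pow_eq_luc h f n]
    simp [luc]

end Rank2

end FLTAgent.Reps
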