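import Mathlib
import Fermat.Prelude.Def_CuspForm_HeckeGaloisRepDatum
import Fermat.Agent.Reps.Model
import Fermat.Agent.Reps.Dickson
import Fermat.Agent.Reps.Cyclo
import Fermat.Agent.Density.Main

/-!
# Traces of Hecke-Galois data are insensitive to inertia

`mk_det_eq_cycMod`: if `det Frob_ℓ = ℓ` outside a finite set, the determinant is cyclotomic.
`trace_mul_inertia`: for a Hecke-Galois datum `H` and an inertia element `i` at `q ∉ S`,
`trace (g i) = trace g`. Modulo `p ^ m` of the Galois model, `σ + c(σ) σ⁻¹` is a Hecke element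
with the trace of `H` as image (`traceRel_all`: true at Frobenius elements, then Chebotarev
density and `luc` for powers); the model is unramified at `q` and, by Artin–Rees, its Hecke
action controls the congruences (`GalModel.tauMod_faithful`).
-/

set_option autoImplicit false

noncomputable section

open CuspForm Matrix Polynomial
open IsLocalRing (maximalIdeal)

namespace FLTAgent.Reps

local notation "ℚ̄" => AlgebraicClosure ℚ
local notation "Γℚ" => (AlgebraicClosure ℚ ≃ₐ[ℚ] AlgebraicClosure ℚ)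

/-- `ℤ/p^m → T/I^n` for `n ≤ m`. -/
def zmodToQuotLE {p : ℕ} {T : Type*} [CommRing T] (I : Ideal T) (hp : (p : T) ∈ I) {m n : ℕ}
    (h : n ≤ m) : ZMod (p ^ m) →+* T ⧸ I ^ n :=
  (Ideal.Quotient.factorPow I h).comp (zmodToQuot I hp m)

theorem forall_of_frobenius {P : Γℚ → Prop} (L : IntermediateField ℚ ℚ̄) [FiniteDimensional ℚ L]
    (S : Finset ℕ)
    (hPU : ∀ g : Γℚ, ∀ u : Γℚ, (∀ x ∈ L, u x = x) → P g → P (g * u))
    (hPpow : ∀ (g : Γℚ) (k : ℕ), P g → P (g ^ k))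
    (hFrob : ∀ ℓ : ℕ, ℓ.Prime → ℓ ∉ S →
      ∀ A : ValuationSubring ℚ̄, A.LiesOverPrime ℓ → ∀ τ : Γℚ, A.IsFrobeniusAt τ ℓ → P τ)
    (g : Γℚ) : P g :=
  Density.forall_of_forall_isFrobeniusAt (P := P) L.fixingSubgroup L.fixingSubgroup_isOpen S
    (fun g u hu => hPU g u ((IntermediateField.mem_fixingSubgroup_iff _ _).mp hu)) hPpow hFrob g

section ModN

variable {T : Type} [CommRing T] [IsLocalRing T] (ρ : GaloisRepAdic T) (I : Ideal T)

/-- The matrix representation modulo an ideal. -/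
def matMod : Γℚ →* Matrix (Fin 2) (Fin 2) (T ⧸ I) :=
  ((Ideal.Quotient.mk I).mapMatrix.toMonoidHom.comp
    (LinearMap.toMatrixAlgEquiv (Module.finBasisOfFinrankEq T ρ.V ρ.finrank_eq)).toMonoidHom).comp
      ρ.ρ

theorem trace_matMod (σ : Γℚ) :
    (matMod ρ I σ).trace = Ideal.Quotient.mk I (LinearMap.trace T ρ.V (ρ.ρ σ)) := by
  rw [LinearMap.trace_eq_matrix_trace T (Module.finBasisOfFinrankEq T ρ.V ρ.finrank_eq) (ρ.ρ σ)]
  exact (AddMonoidHom.map_trace (Ideal.Quotient.mk I).toAddMonoidHom _).symm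

theorem det_matMod (σ : Γℚ) :
    (matMod ρ I σ).det = Ideal.Quotient.mk I (LinearMap.det (ρ.ρ σ)) := by
  rw [← LinearMap.det_toMatrix (Module.finBasisOfFinrankEq T ρ.V ρ.finrank_eq) (ρ.ρ σ)]
  exact (RingHom.map_det (Ideal.Quotient.mk I) _).symm

theorem matMod_eq_one {σ : Γℚ}
    (h : ∀ v, ρ.ρ σ v - v ∈ I • (⊤ : Submodule T ρ.V)) : matMod ρ I σ = 1 := by
  set b := Module.finBasisOfFinrankEq T ρ.V ρ.finrank_eq with hb
  have key : ∀ x ∈ I • (⊤ : Submodule T ρ.V), ∀ i, b.repr x i ∈ I := by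
    intro x hx i
    refine Submodule.smul_induction_on (p := fun x => b.repr x i ∈ I) hx ?_ ?_
    · intro a ha w _
      simpa using I.mul_mem_right _ ha
    · intro x y hx hy
      simpa using I.add_mem hx hy
  ext i j
  have := key _ (h (b j)) i
  rw [← Ideal.Quotient.eq_zero_iff_mem, map_sub, Finsupp.sub_apply, map_sub, sub_eq_zero] at this
  show Ideal.Quotient.mk I (LinearMap.toMatrixAlgEquiv b (ρ.ρ σ) i j) = _
  rw [LinearMap.toMatrixAlgEquiv_apply, this, Module.Basis.repr_self]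
  rcases eq_or_ne i j with rfl | hij
  · simp
  · rw [Finsupp.single_eq_of_ne hij, map_zero, Matrix.one_apply_ne hij]

end ModN

section Main

variable {p : ℕ} [Fact p.Prime] {T : Type} [CommRing T] [IsLocalRing T] [IsNoetherianRing T]
  [IsAdicComplete (maximalIdeal T) T]

/-- The determinant of a representation with `det Frob_ℓ = ℓ` is cyclotomic, modulo `m_T ^ n`. -/
theorem mk_det_eq_cycMod (hp : (p : T) ∈ maximalIdeal T) (ρ : GaloisRepAdic T) (S : Finset ℕ)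
    (hpS : p ∈ S)
    (hfrob : ∀ ℓ : ℕ, ℓ.Prime → ℓ ∉ S → ∀ A : ValuationSubring ℚ̄, A.LiesOverPrime ℓ →
      ∀ σ : Γℚ, A.IsFrobeniusAt σ ℓ → LinearMap.det (ρ.ρ σ) = ℓ)
    {m n : ℕ} (hmn : n ≤ m) (g : Γℚ) :
    Ideal.Quotient.mk (maximalIdeal T ^ n) (LinearMap.det (ρ.ρ g)) =
      zmodToQuotLE (maximalIdeal T) hp hmn (cycMod p m g) := by
  obtain ⟨L₁, hL₁, hfix₁⟩ := ρ.isAdicContinuous n
  obtain ⟨L₂, hL₂, hfix₂⟩ := exists_level_cycMod (p := p) m
  refine forall_of_frobenius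
    (P := fun g => Ideal.Quotient.mk (maximalIdeal T ^ n) (LinearMap.det (ρ.ρ g)) =
      zmodToQuotLE (maximalIdeal T) hp hmn (cycMod p m g))
    (L₁ ⊔ L₂) S ?_ ?_ ?_ g
  · intro g u hu hg
    have h1 : ∀ x ∈ L₁, u x = x := fun x hx => hu x (le_sup_left (a := L₁) hx)
    have h2 : ∀ x ∈ L₂, u x = x := fun x hx => hu x (le_sup_right (b := L₂) hx)
    rw [← det_matMod, map_mul, Matrix.det_mul, matMod_eq_one ρ _ (hfix₁ u h1), Matrix.det_one,
      mul_one, det_matMod, hg, map_mul, hfix₂ u h2, mul_one]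
  · intro g k hg
    rw [map_pow, map_pow, map_pow, hg, map_pow, map_pow]
  · intro ℓ hℓ hℓS A hA σ hσ
    rw [hfrob ℓ hℓ hℓS A hA σ hσ, map_natCast]
    show _ = zmodToQuotLE _ hp hmn (PadicInt.toZModPow m (cyc p σ))
    rw [cyc_frobenius hℓ (fun h => hℓS (h ▸ hpS)) hA hσ, map_natCast, map_natCast]

end Main

section Faithful

variable {N : ℕ} [NeZero N] {p : ℕ} [Fact p.Prime]

/-- Reduction of the integral Hecke action modulo `p ^ m`. -/
def GalModel.tauMod (G : GalModel N p) (m : ℕ) :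
    TZ N →+* Matrix (Fin G.r) (Fin G.r) (ZMod (p ^ m)) :=
  (Int.castRingHom (ZMod (p ^ m))).mapMatrix.comp G.τ

/-- Reduction of the Galois action modulo `p ^ m`. -/
def GalModel.MMod (G : GalModel N p) (m : ℕ) : Γℚ →* Matrix (Fin G.r) (Fin G.r) (ZMod (p ^ m)) :=
  (PadicInt.toZModPow m).mapMatrix.toMonoidHom.comp G.M

theorem GalModel.toZModPow_mapMatrix_tau (G : GalModel N p) (m : ℕ) (t : TZ N) :
    (PadicInt.toZModPow m).mapMatrix ((Int.castRingHom ℤ_[p]).mapMatrix (G.τ t)) = G.tauMod m t := by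
  ext i j
  simp [GalModel.tauMod]

/-- A Hecke element vanishing modulo `p ^ (n + c)` has image in `I ^ n`, for a fixed `c`. -/
theorem GalModel.tauMod_faithful (G : GalModel N p) (S : Set ℕ)
    {T : Type*} [CommRing T] (π : ↥(heckeAlgebra N 2 S) →+* T) {I : Ideal T} (hp : (p : T) ∈ I) :
    ∃ c : ℕ, ∀ (n : ℕ) (t : ↥(heckeAlgebra N 2 S)),
      G.tauMod (n + c) (Subalgebra.inclusion (heckeAlgebra_mono (Set.empty_subset S)) t) = 0 →
        π t ∈ I ^ n := by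
  let f : ↥(heckeAlgebra N 2 S) →+ Matrix (Fin G.r) (Fin G.r) ℤ :=
    G.τ.toAddMonoidHom.comp
      (Subalgebra.inclusion (heckeAlgebra_mono (Set.empty_subset S))).toRingHom.toAddMonoidHom
  let R : Submodule ℤ (Matrix (Fin G.r) (Fin G.r) ℤ) := AddSubgroup.toIntSubmodule f.range
  obtain ⟨k, hk⟩ := Ideal.exists_pow_inf_eq_pow_smul (Ideal.span {(p : ℤ)}) R
  refine ⟨k, fun n t ht => ?_⟩
  have hdiv : ∀ i j, ((p ^ (n + k) : ℕ) : ℤ) ∣ f t i j := fun i j =>
    (ZMod.intCast_zmod_eq_zero_iff_dvd _ _).mp (congrFun (congrFun ht i) j)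
  choose A hA using fun i => fun j => hdiv i j
  have hmem : f t ∈ Ideal.span {(p : ℤ)} ^ (n + k) •
      (⊤ : Submodule ℤ (Matrix (Fin G.r) (Fin G.r) ℤ)) ⊓ R := by
    refine Submodule.mem_inf.mpr ⟨?_, ⟨t, rfl⟩⟩
    rw [Ideal.span_singleton_pow, Submodule.ideal_span_singleton_smul]
    refine ⟨Matrix.of A, trivial, ?_⟩
    ext i j
    simp [hA i j]
  rw [hk (n + k) (Nat.le_add_left k n), Nat.add_sub_cancel] at hmem
  have h2 := Submodule.smul_mono (le_refl (Ideal.span {(p : ℤ)} ^ n))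
    (inf_le_right : Ideal.span {(p : ℤ)} ^ k •
      (⊤ : Submodule ℤ (Matrix (Fin G.r) (Fin G.r) ℤ)) ⊓ R ≤ R) hmem
  rw [Ideal.span_singleton_pow, Submodule.ideal_span_singleton_smul] at h2
  obtain ⟨_, ⟨s, rfl⟩, hs⟩ := h2
  have hs' : f t = f ((p ^ n : ℕ) • s) := by
    rw [map_nsmul, ← hs]
    simp
  have hinj : Function.Injective f :=
    G.τ_injective.comp (Subalgebra.inclusion_injective (heckeAlgebra_mono (Set.empty_subset S)))
  rw [hinj hs', map_nsmul, nsmul_eq_mul, Nat.cast_pow]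
  exact Ideal.mul_mem_right _ _ (Ideal.pow_mem_pow hp n)

end Faithful

section Unramified

variable {p : ℕ} {N : ℕ} [NeZero N] {S : Finset ℕ}
  {𝒪 : Type} [CommRing 𝒪] [IsDomain 𝒪] [IsDiscreteValuationRing 𝒪]
  [IsAdicComplete (maximalIdeal 𝒪) 𝒪]
  {θ : CuspForm.heckeAlgebra N 2 (↑S : Set ℕ) →+* IsLocalRing.ResidueField 𝒪}
  {T : Type} [CommRing T] [IsLocalRing T] [IsNoetherianRing T]
  [IsAdicComplete (maximalIdeal T) T] [Algebra 𝒪 T] [IsLocalHom (algebraMap 𝒪 T)]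
  [Module.Finite 𝒪 T] [Module.Free 𝒪 T]

/-- The trace relation behind unramifiedness. -/
def TraceRel [Fact p.Prime] (G : GalModel N p)
    (H : CuspForm.HeckeGaloisRepDatum N (↑S : Set ℕ) 𝒪 θ T) (m n : ℕ) (g : Γℚ) : Prop :=
  ∃ t : ↥(heckeAlgebra N 2 (↑S : Set ℕ)),
    G.MMod m g + cycMod p m g • G.MMod m g⁻¹ =
      G.tauMod m (Subalgebra.inclusion (heckeAlgebra_mono (Set.empty_subset _)) t) ∧
    Ideal.Quotient.mk (maximalIdeal T ^ n) (LinearMap.trace T H.ρ.V (H.ρ.ρ g)) =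
      Ideal.Quotient.mk (maximalIdeal T ^ n) (H.π t)

theorem natCast_mem_maximalIdeal (hp𝒪 : (p : 𝒪) ∈ maximalIdeal 𝒪) :
    (p : T) ∈ maximalIdeal T := by
  rw [← map_natCast (algebraMap 𝒪 T)]
  exact map_nonunit (algebraMap 𝒪 T) _ hp𝒪

/-- The trace relation holds for every Galois element. -/
theorem traceRel_all [Fact p.Prime] (G : GalModel N p)
    (hp𝒪 : (p : 𝒪) ∈ maximalIdeal 𝒪) (hpS : p ∈ S) (hNS : ∀ q : ℕ, q.Prime → q ∣ N → q ∈ S)
    (H : CuspForm.HeckeGaloisRepDatum N (↑S : Set ℕ) 𝒪 θ T)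
    {m n : ℕ} (hmn : n ≤ m) (g : Γℚ) : TraceRel G H m n g := by
  have hpT := natCast_mem_maximalIdeal (T := T) hp𝒪
  have hdet := mk_det_eq_cycMod hpT H.ρ S hpS (fun ℓ hℓ hℓS A hA σ hσ =>
    (trace_det_of_charpoly_eq H.ρ.finrank_eq
      (H.charpoly_frob ℓ hℓ (fun h => hℓS (hNS ℓ hℓ h)) (mod_cast hℓS) A hA σ hσ)).2) hmn
  obtain ⟨L₁, hL₁, hfix₁⟩ := H.ρ.isAdicContinuous n
  obtain ⟨L₂, hL₂, hfix₂⟩ := exists_level_cycMod (p := p) m
  obtain ⟨L₃, hL₃, hfix₃⟩ := G.continuous_level m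
  refine forall_of_frobenius (P := TraceRel G H m n) (L₁ ⊔ L₂ ⊔ L₃) S ?_ ?_ ?_ g
  · intro g u hu hg
    have h1 : ∀ x ∈ L₁, u x = x := fun x hx =>
      hu x (le_sup_left (a := L₁ ⊔ L₂) (le_sup_left (a := L₁) hx))
    have h2 : ∀ x ∈ L₂, u x = x := fun x hx =>
      hu x (le_sup_left (a := L₁ ⊔ L₂) (le_sup_right (b := L₂) hx))
    have h3 : ∀ x ∈ L₃, u x = x := fun x hx => hu x (le_sup_right (b := L₃) hx)
    have h3' : ∀ x ∈ L₃, u⁻¹ x = x := fun x hx => by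
      conv_lhs => rw [← h3 x hx]
      exact u.symm_apply_apply x
    obtain ⟨t, ht, htr⟩ := hg
    have e3 : G.MMod m u = 1 := hfix₃ u h3
    have e3' : G.MMod m u⁻¹ = 1 := hfix₃ _ h3'
    refine ⟨t, ?_, ?_⟩
    · rw [map_mul, map_mul, hfix₂ u h2,
        mul_one, e3, mul_one, _root_.mul_inv_rev, map_mul, e3', one_mul]
      exact ht
    · rw [← trace_matMod, map_mul, matMod_eq_one H.ρ _
        (hfix₁ u h1), mul_one, trace_matMod]
      exact htr
  · intro g k hg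
    obtain ⟨t, ht, htr⟩ := hg
    set d : ↥(heckeAlgebra N 2 (↑S : Set ℕ)) :=
      Nat.cast (R := ↥(heckeAlgebra N 2 (↑S : Set ℕ))) (cycMod p m g).val with hd
    have : NeZero (p ^ m) := ⟨pow_ne_zero m (Fact.out : p.Prime).ne_zero⟩
    refine ⟨luc t d k, ?_, ?_⟩
    · have hinv : G.MMod m g * G.MMod m g⁻¹ = 1 := by rw [← map_mul, mul_inv_cancel, map_one]
      have hinv' : G.MMod m g⁻¹ * G.MMod m g = 1 := by rw [← map_mul, inv_mul_cancel, map_one]
      have key := pow_add_pow_eq_luc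
        ((G.tauMod m).comp
          (Subalgebra.inclusion (heckeAlgebra_mono (Set.empty_subset (↑S : Set ℕ)))).toRingHom)
        (x := G.MMod m g) (y := cycMod p m g • G.MMod m g⁻¹) (a := t) (d := d)
        (Commute.smul_right (hinv.trans hinv'.symm) _) ht
        (by
          rw [mul_smul_comm, hinv, hd, map_natCast, ← map_natCast (algebraMap (ZMod (p ^ m))
            (Matrix (Fin G.r) (Fin G.r) (ZMod (p ^ m)))), ZMod.natCast_zmod_val,
            Algebra.algebraMap_eq_smul_one]) k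
      rw [_root_.smul_pow, ← map_pow, ← map_pow, ← map_pow, inv_pow] at key
      exact key
    · rw [map_pow, trace_pow_eq_luc H.ρ.finrank_eq, map_luc, htr, hdet g, map_luc, map_luc, hd,
        map_natCast, map_natCast]
      congr 1
      conv_lhs => rw [← ZMod.natCast_zmod_val (cycMod p m g), map_natCast]
  · intro ℓ hℓ hℓS A hA σ hσ
    have hℓN : ¬ ℓ ∣ N := fun h => hℓS (hNS ℓ hℓ h)
    have hℓp : ℓ ≠ p := fun h => hℓS (h ▸ hpS)
    refine ⟨heckeAlgebra.T hℓ hℓN (mod_cast hℓS), ?_, ?_⟩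
    · have h0 := congrArg (fun M => (PadicInt.toZModPow m).mapMatrix M)
        (G.frobenius_rel ℓ hℓ hℓN hℓp A hA σ hσ)
      simp only [map_zero, map_add, map_sub, map_mul, map_natCast] at h0
      rw [GalModel.toZModPow_mapMatrix_tau] at h0
      have hc : cycMod p m σ = ℓ := by
        show PadicInt.toZModPow m (cyc p σ) = _
        rw [cyc_frobenius hℓ hℓp hA hσ, map_natCast]
      have h2 : (G.MMod m σ * G.MMod m σ - G.tauMod m (heckeTOf hℓ hℓN) * G.MMod m σ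
          + (ℓ : Matrix (Fin G.r) (Fin G.r) (ZMod (p ^ m)))) * G.MMod m σ⁻¹ = 0 := by
        show ((PadicInt.toZModPow m).mapMatrix (G.M σ) * (PadicInt.toZModPow m).mapMatrix (G.M σ)
          - G.tauMod m (heckeTOf hℓ hℓN) * (PadicInt.toZModPow m).mapMatrix (G.M σ)
          + (ℓ : Matrix (Fin G.r) (Fin G.r) (ZMod (p ^ m)))) * _ = 0
        rw [h0, zero_mul]
      rw [add_mul, sub_mul, mul_assoc, mul_assoc, ← map_mul, mul_inv_cancel, map_one, mul_one,
        mul_one, sub_add_eq_add_sub, sub_eq_zero] at h2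
      rw [hc, Nat.cast_smul_eq_nsmul, nsmul_eq_mul]
      exact h2
    · rw [(trace_det_of_charpoly_eq H.ρ.finrank_eq
        (H.charpoly_frob ℓ hℓ hℓN (mod_cast hℓS) A hA σ hσ)).1]

/-- Multiplying by inertia at `q ∉ S` does not change the trace. -/
theorem trace_mul_inertia [Fact p.Prime] (G : GalModel N p)
    (hp𝒪 : (p : 𝒪) ∈ maximalIdeal 𝒪) (hpS : p ∈ S) (hNS : ∀ q : ℕ, q.Prime → q ∣ N → q ∈ S)
    (H : CuspForm.HeckeGaloisRepDatum N (↑S : Set ℕ) 𝒪 θ T)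
    {q : ℕ} (hq : q.Prime) (hqS : q ∉ S) {A : ValuationSubring ℚ̄} (hA : A.LiesOverPrime q)
    {i : Γℚ} (hi : i ∈ A.inertiaSubgroupIn ℚ) (g : Γℚ) :
    LinearMap.trace T H.ρ.V (H.ρ.ρ (g * i)) = LinearMap.trace T H.ρ.V (H.ρ.ρ g) := by
  obtain ⟨c, hc⟩ := G.tauMod_faithful (↑S : Set ℕ) H.π (natCast_mem_maximalIdeal (T := T) hp𝒪)
  have hqN : ¬ q ∣ N := fun h => hqS (hNS q hq h)
  have hqp : q ≠ p := fun h => hqS (h ▸ hpS)
  refine sub_eq_zero.mp (IsHausdorff.haus (inferInstance : IsHausdorff (maximalIdeal T) T) _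
    fun n => ?_)
  rw [SModEq.zero, smul_eq_mul, Ideal.mul_top]
  obtain ⟨t, ht, htr⟩ := traceRel_all G hp𝒪 hpS hNS H (Nat.le_add_right n c) g
  obtain ⟨t', ht', htr'⟩ := traceRel_all G hp𝒪 hpS hNS H (Nat.le_add_right n c) (g * i)
  have hM : ∀ j ∈ A.inertiaSubgroupIn ℚ, G.MMod (n + c) j = 1 := fun j hj => by
    show (PadicInt.toZModPow (n + c)).mapMatrix (G.M j) = 1
    rw [G.inertia_trivial q hq hqN hqp A hA j hj, map_one]
  have hci : cycMod p (n + c) i = 1 := by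
    show PadicInt.toZModPow (n + c) (cyc p i) = 1
    rw [cyc_inertia hq hqp hA hi, map_one]
  rw [map_mul, map_mul, hci, mul_one, hM i hi, mul_one, _root_.mul_inv_rev, map_mul, hM _ (inv_mem hi),
    one_mul, ht, eq_comm, ← sub_eq_zero, ← map_sub, ← map_sub] at ht'
  have h3 := hc n _ ht'
  rw [← Ideal.Quotient.eq_zero_iff_mem, map_sub] at h3 ⊢
  rw [htr', htr]
  exact h3

end Unramified

end FLTAgent.Reps
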