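import Fermat.Agent.Reps.Tate
import Fermat.Agent.Reps.Unramified

/-!
# Existence of Galois models

`nonempty_galModel`: every level `N` and prime `p` has a `GalModel`, namely the coordinate model
`galModel` of `Fermat.Agent.Reps.Tate`. `exists_galModel_jZero` adds that its reduction modulo
`p ^ m` embeds Galois equivariantly into the points of `J₀(N)` over `ℚ̄`.
-/

set_option autoImplicit false

open Matrix

namespace FLTAgent.Reps

/-- Galois models exist. -/
theorem nonempty_galModel (N : ℕ) [NeZero N] (p : ℕ) [Fact p.Prime] : Nonempty (GalModel N p) :=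
  ⟨galModel N p⟩

/-- A Galois model whose reductions are the torsion points of `J₀(N)`. -/
theorem exists_galModel_jZero (N : ℕ) [NeZero N] (p : ℕ) [Fact p.Prime] :
    ∃ G : GalModel N p, ∀ m : ℕ,
      ∃ ι : (Fin G.r → ZMod (p ^ m)) →+ ModularCurve.JZero N, Function.Injective ι ∧
        ∀ σ x, ι (G.MMod m σ *ᵥ x) = σ • ι x := by
  refine ⟨galModel N p, fun m => ?_⟩
  refine ⟨(tors N (p ^ m)).subtype.comp (coordTors N (p ^ m)).symm.toAddMonoidHom,
    Subtype.val_injective.comp (coordTors N (p ^ m)).symm.injective, fun σ x => ?_⟩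
  obtain ⟨y, rfl⟩ := (coordTors N (p ^ m)).surjective x
  show (((coordTors N (p ^ m)).symm
      ((PadicInt.toZModPow m).mapMatrix ((galModel N p).M σ) *ᵥ coordTors N (p ^ m) y) :
        tors N (p ^ m)) : ModularCurve.JZero N) =
    σ • (((coordTors N (p ^ m)).symm (coordTors N (p ^ m) y) : tors N (p ^ m)) :
      ModularCurve.JZero N)
  exact (congrArg (fun z => ((((coordTors N (p ^ m)).symm z) : tors N (p ^ m)) :
      ModularCurve.JZero N)) (galModel_coord N p m σ y).symm).trans
    (by rw [AddEquiv.symm_apply_apply, AddEquiv.symm_apply_apply]; rfl)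

end FLTAgent.Reps
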