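import Mathlib
import Fermat.Prelude.Def_GaloisRep_Adic
import Fermat.Agent.Reps.Model
import Fermat.Agent.Reps.Dickson
import Fermat.Agent.Reps.Cyclo
import Fermat.Agent.Reps.Unramified

/-!
# The representation on an eigen-lattice of the Galois model

For a Galois model `G : GalModel N p` and a character `χ` of the Hecke ring with values in a
complete discrete valuation ring `O` of characteristic zero, `GalModel.lattice` is the common
eigen-lattice in `O ^ r`; it is free of rank two (`GalModel.finrank_lattice`) and carries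
`GalModel.rep : GaloisRepAdic O`, unramified outside `N p` (`GalModel.rep_unramified`). With
`GalModel.rep_charpoly` its Frobenius at `ℓ` has polynomial `X ^ 2 - χ(T_ℓ) X + ℓ`. The determinant
comes from `det_eq_cyc`: by density of Frobenius elements `ρ g + c(g) ρ g⁻¹` is scalar for every
`g`, `c` cyclotomic, and complex conjugation is not scalar.
-/

set_option autoImplicit false

noncomputable section

open CuspForm Matrix Polynomial
open IsLocalRing (maximalIdeal)

namespace FLTAgent.Reps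

local notation "ℚ̄" => AlgebraicClosure ℚ
local notation "Γℚ" => (AlgebraicClosure ℚ ≃ₐ[ℚ] AlgebraicClosure ℚ)

theorem mem_smul_top_of_forall {R ι : Type*} [CommRing R] [Fintype ι] [DecidableEq ι] {I : Ideal R}
    {x : ι → R} (h : ∀ i, x i ∈ I) : x ∈ I • (⊤ : Submodule R (ι → R)) := by
  have : x = ∑ i, x i • Pi.single (M := fun _ : ι => R) i 1 := by
    funext j; simp [Finset.sum_apply, Pi.single_apply]
  rw [this]
  exact Submodule.sum_mem _ fun i _ => Submodule.smul_mem_smul (h i) Submodule.mem_top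

section Construction

variable {N : ℕ} [NeZero N] {p : ℕ} [Fact p.Prime] (G : GalModel N p)
  {O : Type} [CommRing O] [IsDomain O] [IsDiscreteValuationRing O]
  [IsAdicComplete (maximalIdeal O) O] [CharZero O]
  (hp : (p : O) ∈ maximalIdeal O) (χ : TZ N →+* O)

/-- Integral Hecke matrices in `O`. -/
def GalModel.tauO (G : GalModel N p) : TZ N →+* Matrix (Fin G.r) (Fin G.r) O :=
  (Int.castRingHom O).mapMatrix.comp G.τ

/-- Galois matrices in `O`. -/
def GalModel.MO : Γℚ →* Matrix (Fin G.r) (Fin G.r) O :=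
  (padicHom (maximalIdeal O) hp).mapMatrix.toMonoidHom.comp G.M

/-- The eigen-lattice. -/
def GalModel.lattice : Submodule O (Fin G.r → O) := eigenSub (fun t => G.tauO (O := O) t) χ

theorem GalModel.padicHom_tau (t : TZ N) :
    (padicHom (maximalIdeal O) hp).mapMatrix ((Int.castRingHom ℤ_[p]).mapMatrix (G.τ t)) =
      G.tauO (O := O) t := by
  ext i j
  simp [GalModel.tauO]

theorem GalModel.mulVec_mem_lattice (σ : Γℚ) {v : Fin G.r → O} (hv : v ∈ G.lattice χ) :
    G.MO hp σ *ᵥ v ∈ G.lattice χ := by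
  rw [GalModel.lattice, mem_eigenSub] at hv ⊢
  intro t
  have h := congrArg (padicHom (maximalIdeal O) hp).mapMatrix (G.commute_hecke σ t).eq
  rw [map_mul, map_mul, GalModel.padicHom_tau] at h
  rw [Matrix.mulVec_mulVec, show G.MO hp σ = (padicHom (maximalIdeal O) hp).mapMatrix (G.M σ) from rfl,
    ← h, ← Matrix.mulVec_mulVec, hv t, Matrix.mulVec_smul]

/-- The action on the eigen-lattice. -/
def GalModel.latticeRep : Γℚ →* Module.End O ↥(G.lattice χ) where
  toFun σ := (Matrix.mulVecLin (G.MO hp σ)).restrict (fun _ hv => G.mulVec_mem_lattice hp χ σ hv)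
  map_one' := LinearMap.ext fun v => Subtype.ext (by simp [LinearMap.restrict_apply])
  map_mul' σ τ := LinearMap.ext fun v => Subtype.ext (by
    simp [LinearMap.restrict_apply, Matrix.mulVec_mulVec])

theorem GalModel.coe_latticeRep (σ : Γℚ) (v : G.lattice χ) :
    ((G.latticeRep hp χ σ v : G.lattice χ) : Fin G.r → O) = G.MO hp σ *ᵥ (v : Fin G.r → O) := rfl

/-- `O`-coordinates into `K`-coordinates. -/
def coordMap (O : Type) [CommRing O] (r : ℕ) : (Fin r → O) →ₗ[O] (Fin r → FractionRing O) :=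
  (Algebra.linearMap O (FractionRing O)).compLeft (Fin r)

theorem coordMap_mulVec {O : Type} [CommRing O] {r : ℕ} (A : Matrix (Fin r) (Fin r) O)
    (v : Fin r → O) :
    coordMap O r (A *ᵥ v) = (algebraMap O (FractionRing O)).mapMatrix A *ᵥ coordMap O r v :=
  funext fun i => RingHom.map_mulVec (algebraMap O (FractionRing O)) A v i

theorem coordMap_injective {O : Type} [CommRing O] [IsDomain O] {r : ℕ} :
    Function.Injective (coordMap O r) := fun _ _ h =>
  funext fun i => IsFractionRing.injective O (FractionRing O) (congrFun h i)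

/-- The eigenspace over the fraction field. -/
def GalModel.space : Submodule (FractionRing O) (Fin G.r → FractionRing O) :=
  eigenSub (fun t => (Int.castRingHom (FractionRing O)).mapMatrix (G.τ t))
    ((algebraMap O (FractionRing O)).comp χ)

theorem GalModel.algebraMap_tauO (t : TZ N) :
    (algebraMap O (FractionRing O)).mapMatrix (G.tauO (O := O) t) =
      (Int.castRingHom (FractionRing O)).mapMatrix (G.τ t) := by
  ext i j
  simp [GalModel.tauO]

theorem GalModel.coordMap_mem_space {v : Fin G.r → O} (hv : v ∈ G.lattice χ) :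
    coordMap O G.r v ∈ G.space χ := by
  rw [GalModel.lattice, mem_eigenSub] at hv
  rw [GalModel.space, mem_eigenSub]
  intro t
  have h := congrArg (coordMap O G.r) (hv t)
  rw [coordMap_mulVec, GalModel.algebraMap_tauO, map_smul, algebra_compatible_smul (FractionRing O)] at h
  exact h

theorem GalModel.exists_smul_eq {v : Fin G.r → FractionRing O} (hv : v ∈ G.space χ) :
    ∃ d : O, d ≠ 0 ∧ ∃ w ∈ G.lattice χ, coordMap O G.r w = algebraMap O (FractionRing O) d • v := by
  obtain ⟨d, hd⟩ := IsLocalization.exist_integer_multiples (nonZeroDivisors O) Finset.univ v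
  choose w hw using fun i => hd i (Finset.mem_univ i)
  refine ⟨d, nonZeroDivisors.ne_zero d.2, w, ?_, ?_⟩
  · rw [GalModel.space, mem_eigenSub] at hv
    rw [GalModel.lattice, mem_eigenSub]
    intro t
    apply coordMap_injective
    have hcw : coordMap O G.r w = (algebraMap O (FractionRing O) d) • v := funext fun i => by
      show algebraMap O (FractionRing O) (w i) = _
      rw [hw i, Pi.smul_apply, Algebra.smul_def, smul_eq_mul]
    rw [coordMap_mulVec, GalModel.algebraMap_tauO, map_smul,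
      algebra_compatible_smul (FractionRing O) (χ t), hcw, Matrix.mulVec_smul, hv t, smul_comm]
    rfl
  · funext i
    show algebraMap O (FractionRing O) (w i) = _
    rw [hw i, Pi.smul_apply, Algebra.smul_def, smul_eq_mul]

theorem GalModel.lattice_free : Module.Free O ↥(G.lattice χ) :=
  Module.free_of_finite_type_torsion_free'

/-- The eigen-lattice has rank two. -/
theorem GalModel.finrank_lattice : Module.finrank O ↥(G.lattice χ) = 2 := by
  have := G.lattice_free χ
  have : CharZero (FractionRing O) :=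
    charZero_of_injective_algebraMap (IsFractionRing.injective O (FractionRing O))
  let b := Module.finBasis O ↥(G.lattice χ)
  let w : Fin (Module.finrank O ↥(G.lattice χ)) → ↥(G.space χ) := fun i =>
    ⟨coordMap O G.r (b i : Fin G.r → O), G.coordMap_mem_space χ (b i).2⟩
  have hli : LinearIndependent (FractionRing O) w := by
    refine LinearIndependent.of_comp (G.space χ).subtype ?_
    have h1 : LinearIndependent O (fun i => coordMap O G.r (b i : Fin G.r → O)) :=
      b.linearIndependent.map' ((coordMap O G.r).comp (G.lattice χ).subtype)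
        (LinearMap.ker_eq_bot.mpr (coordMap_injective.comp Subtype.val_injective))
    exact (LinearIndependent.iff_fractionRing O (FractionRing O)).mp h1
  have hsp : ⊤ ≤ Submodule.span (FractionRing O) (Set.range w) := by
    rintro ⟨v, hv⟩ -
    obtain ⟨d, hd, x, hx, hxv⟩ := G.exists_smul_eq χ hv
    have hd' : algebraMap O (FractionRing O) d ≠ 0 :=
      (map_ne_zero_iff _ (IsFractionRing.injective O (FractionRing O))).mpr hd
    have hsum : (⟨v, hv⟩ : ↥(G.space χ)) = ∑ i,
        ((algebraMap O (FractionRing O) d)⁻¹ * algebraMap O (FractionRing O) (b.repr ⟨x, hx⟩ i)) •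
          w i := by
      apply Subtype.ext
      rw [Submodule.coe_sum]
      simp only [SetLike.val_smul, mul_smul, w, algebraMap_smul, ← Finset.smul_sum]
      rw [eq_inv_smul_iff₀ hd', ← hxv]
      have := congrArg (fun y : ↥(G.lattice χ) => coordMap O G.r (y : Fin G.r → O))
        (b.sum_repr ⟨x, hx⟩).symm
      simp only [Submodule.coe_sum, map_sum, SetLike.val_smul, map_smul] at this
      exact this
    rw [hsum]
    exact Submodule.sum_mem _ fun i _ =>
      Submodule.smul_mem _ _ (Submodule.subset_span (Set.mem_range_self i))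
  have h2 := Module.finrank_eq_card_basis (Module.Basis.mk hli hsp)
  rw [Fintype.card_fin] at h2
  rw [← h2]
  exact G.finrank_eigen (FractionRing O) ((algebraMap O (FractionRing O)).comp χ)

theorem GalModel.isAdicContinuous_latticeRep :
    GaloisActionIsAdicContinuous O (G.latticeRep hp χ) := by
  intro n
  obtain ⟨k, hk⟩ := Ideal.exists_pow_inf_eq_pow_smul (maximalIdeal O) (G.lattice χ)
  obtain ⟨L, hL, hfix⟩ := G.continuous_level (n + k)
  refine ⟨L, hL, fun σ hσ v => ?_⟩
  set x : Fin G.r → O := G.MO hp σ *ᵥ (v : Fin G.r → O) - (v : Fin G.r → O) with hx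
  have hmem : x ∈ maximalIdeal O ^ (n + k) • (⊤ : Submodule O (Fin G.r → O)) ⊓ G.lattice χ := by
    refine ⟨mem_smul_top_of_forall fun i => ?_, sub_mem (G.mulVec_mem_lattice hp χ σ v.2) v.2⟩
    rw [← Ideal.Quotient.eq_zero_iff_mem, hx, Pi.sub_apply, map_sub, RingHom.map_mulVec,
      show (G.MO hp σ).map (Ideal.Quotient.mk (maximalIdeal O ^ (n + k))) = 1 from ?_,
      Matrix.one_mulVec, Function.comp_apply, sub_self]
    have h1 := congrArg (zmodToQuot (maximalIdeal O) hp (n + k)).mapMatrix (hfix σ hσ)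
    rw [map_one] at h1
    refine Eq.trans ?_ h1
    ext i j
    exact mk_padicHom _ hp (n + k) _
  rw [hk (n + k) (Nat.le_add_left k n), Nat.add_sub_cancel] at hmem
  have h2 := Submodule.smul_mono (le_refl (maximalIdeal O ^ n))
    (inf_le_right : maximalIdeal O ^ k • (⊤ : Submodule O (Fin G.r → O)) ⊓ G.lattice χ ≤
      G.lattice χ) hmem
  have h3 : x ∈ (maximalIdeal O ^ n • (⊤ : Submodule O ↥(G.lattice χ))).map (G.lattice χ).subtype := by
    rw [Submodule.map_smul'', Submodule.map_subtype_top]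
    exact h2
  obtain ⟨y, hy, hyx⟩ := Submodule.mem_map.mp h3
  have : G.latticeRep hp χ σ v - v = y := Subtype.ext hyx.symm
  rw [this]
  exact hy

/-- The representation on the eigen-lattice. -/
def GalModel.rep : GaloisRepAdic O :=
  haveI := G.lattice_free χ
  { V := ↥(G.lattice χ)
    finrank_eq := G.finrank_lattice χ
    ρ := G.latticeRep hp χ
    isAdicContinuous := G.isAdicContinuous_latticeRep hp χ }

theorem GalModel.rep_unramified {q : ℕ} (hq : q.Prime) (hqN : ¬ q ∣ N) (hqp : q ≠ p) :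
    (G.rep hp χ).IsUnramifiedAt q := by
  intro A hA σ hσ
  refine LinearMap.ext fun v => Subtype.ext ?_
  show G.MO hp σ *ᵥ _ = _
  show (padicHom (maximalIdeal O) hp).mapMatrix (G.M σ) *ᵥ _ = _
  rw [G.inertia_trivial q hq hqN hqp A hA σ hσ, map_one, Matrix.one_mulVec]
  rfl

/-- The Eichler–Shimura relation on the eigen-lattice. -/
theorem GalModel.rep_frobenius_rel {ℓ : ℕ} (hℓ : ℓ.Prime) (hℓN : ¬ ℓ ∣ N) (hℓp : ℓ ≠ p)
    {A : ValuationSubring ℚ̄} (hA : A.LiesOverPrime ℓ) {σ : Γℚ} (hσ : A.IsFrobeniusAt σ ℓ) :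
    (G.rep hp χ).ρ σ * (G.rep hp χ).ρ σ - χ (heckeTOf hℓ hℓN) • (G.rep hp χ).ρ σ
      + (ℓ : O) • (1 : Module.End O (G.rep hp χ).V) = 0 := by
  have h := congrArg (padicHom (maximalIdeal O) hp).mapMatrix
    (G.frobenius_rel ℓ hℓ hℓN hℓp A hA σ hσ)
  rw [map_zero, map_add, map_sub, map_mul, map_mul, map_natCast, GalModel.padicHom_tau] at h
  refine LinearMap.ext fun (v : ↥(G.lattice χ)) => Subtype.ext ?_
  have hv := (mem_eigenSub.mp (G.mulVec_mem_lattice hp χ σ v.2)) (heckeTOf hℓ hℓN)
  have h2 := congrArg (fun B => B *ᵥ ((v : Fin G.r → O))) h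
  simp only [Matrix.add_mulVec, Matrix.sub_mulVec, Matrix.zero_mulVec, ← Matrix.mulVec_mulVec] at h2
  show G.MO hp σ *ᵥ (G.MO hp σ *ᵥ (v : Fin G.r → O))
      - χ (heckeTOf hℓ hℓN) • (G.MO hp σ *ᵥ (v : Fin G.r → O))
      + (ℓ : O) • (v : Fin G.r → O) = 0
  rw [← hv]
  rw [Matrix.natCast_mulVec] at h2
  exact h2

theorem GalModel.rep_cc_not_scalar (a : O) :
    (G.rep hp χ).ρ G.cc ≠ a • (1 : Module.End O (G.rep hp χ).V) := by
  intro h
  have : CharZero (FractionRing O) :=
    charZero_of_injective_algebraMap (IsFractionRing.injective O (FractionRing O))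
  let f : ℤ_[p] →+* FractionRing O :=
    (algebraMap O (FractionRing O)).comp (padicHom (maximalIdeal O) hp)
  have key : ∀ v ∈ G.space χ, f.mapMatrix (G.M G.cc) *ᵥ v =
      algebraMap O (FractionRing O) a • v := by
    intro v hv
    obtain ⟨d, hd, w, hw, hwv⟩ := G.exists_smul_eq χ hv
    have hd' : algebraMap O (FractionRing O) d ≠ 0 :=
      (map_ne_zero_iff _ (IsFractionRing.injective O (FractionRing O))).mpr hd
    have h1 := congrArg (fun φ : Module.End O (G.rep hp χ).V =>
      coordMap O G.r (Subtype.val (show ↥(G.lattice χ) from φ (⟨w, hw⟩ : ↥(G.lattice χ))))) h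
    have h2 : coordMap O G.r (G.MO hp G.cc *ᵥ w) = coordMap O G.r (a • w) := h1
    rw [coordMap_mulVec, map_smul, algebra_compatible_smul (FractionRing O) a, hwv,
      Matrix.mulVec_smul, smul_comm] at h2
    exact smul_right_injective _ hd' h2
  obtain ⟨v, hv, hv0, hv1⟩ := G.exists_plus (FractionRing O) ((algebraMap O _).comp χ) f
  obtain ⟨w, hw, hw0, hw1⟩ := G.exists_minus (FractionRing O) ((algebraMap O _).comp χ) f
  rw [key v hv] at hv1
  rw [key w hw] at hw1
  have e1 : (algebraMap O (FractionRing O) a - 1) • v = 0 := by rw [sub_smul, one_smul, hv1, sub_self]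
  have e2 : (algebraMap O (FractionRing O) a + 1) • w = 0 := by
    rw [add_smul, one_smul, hw1, neg_add_cancel]
  have a1 := (smul_eq_zero.mp e1).resolve_right hv0
  have a2 := (smul_eq_zero.mp e2).resolve_right hw0
  have : (2 : FractionRing O) = 0 := by linear_combination a2 - a1
  exact two_ne_zero this

end Construction

section Det

variable {p : ℕ} [Fact p.Prime] {O : Type} [CommRing O] [IsDomain O] [IsLocalRing O]
  [IsAdicComplete (maximalIdeal O) O]

/-- A two by two matrix is scalar. -/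
def IsScalar2 {R : Type*} [CommRing R] (X : Matrix (Fin 2) (Fin 2) R) : Prop :=
  X 0 1 = 0 ∧ X 1 0 = 0 ∧ X 0 0 = X 1 1

theorem IsScalar2.eq_smul {R : Type*} [CommRing R] {X : Matrix (Fin 2) (Fin 2) R}
    (h : IsScalar2 X) : X = X 0 0 • (1 : Matrix (Fin 2) (Fin 2) R) := by
  ext i j
  fin_cases i <;> fin_cases j <;> simp [h.1, h.2.1, h.2.2]

theorem sq_sub_trace_smul {R : Type*} [CommRing R] (X : Matrix (Fin 2) (Fin 2) R) :
    X * X - X.trace • X + X.det • (1 : Matrix (Fin 2) (Fin 2) R) = 0 := by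
  ext i j
  fin_cases i <;> fin_cases j <;>
    simp [Matrix.mul_apply, Fin.sum_univ_two, Matrix.trace_fin_two, Matrix.det_fin_two] <;> ring

/-- A quadratic relation determines trace and determinant of a non-scalar matrix. -/
theorem trace_det_of_rel {R : Type*} [CommRing R] [IsDomain R] {X : Matrix (Fin 2) (Fin 2) R}
    {a c : R} (h : X * X - a • X + c • (1 : Matrix (Fin 2) (Fin 2) R) = 0) (hX : ¬ IsScalar2 X) :
    X.trace = a ∧ X.det = c := by
  have h' : (X.trace - a) • X = (X.det - c) • (1 : Matrix (Fin 2) (Fin 2) R) := by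
    linear_combination (norm := module) h - sq_sub_trace_smul X
  by_cases ht : X.trace - a = 0
  · refine ⟨sub_eq_zero.mp ht, sub_eq_zero.mp ?_⟩
    have := congrFun (congrFun h' 0) 0
    simpa [ht] using this.symm
  · refine absurd ⟨?_, ?_, ?_⟩ hX
    · simpa [ht] using congrFun (congrFun h' 0) 1
    · simpa [ht] using congrFun (congrFun h' 1) 0
    · have e0 := congrFun (congrFun h' 0) 0
      have e1 := congrFun (congrFun h' 1) 1
      simp only [Matrix.smul_apply, Matrix.one_apply_eq, smul_eq_mul] at e0 e1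
      exact mul_left_cancel₀ ht (e0.trans e1.symm)

theorem trace_of_rel_of_det {R : Type*} [CommRing R] [IsDomain R]
    {X Y : Matrix (Fin 2) (Fin 2) R} {a : R} (hXY : X * Y = 1)
    (h : X * X - a • X + X.det • (1 : Matrix (Fin 2) (Fin 2) R) = 0) : X.trace = a := by
  have h' : (X.trace - a) • X = 0 := by
    linear_combination (norm := module) h - sq_sub_trace_smul X
  have := congrArg (fun Z => (Z * Y) 0 0) h'
  simp only [smul_mul_assoc, hXY, zero_mul, Matrix.smul_apply, Matrix.one_apply_eq, smul_eq_mul,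
    mul_one, Matrix.zero_apply] at this
  exact sub_eq_zero.mp this

/-- The matrix of a representation. -/
def matRho (ρ : GaloisRepAdic O) : Γℚ →* Matrix (Fin 2) (Fin 2) O :=
  (LinearMap.toMatrixAlgEquiv (Module.finBasisOfFinrankEq O ρ.V ρ.finrank_eq)).toMonoidHom.comp ρ.ρ

theorem map_matRho (ρ : GaloisRepAdic O) (I : Ideal O) (g : Γℚ) :
    (Ideal.Quotient.mk I).mapMatrix (matRho ρ g) = matMod ρ I g := rfl

theorem isScalar2_add_cyc (hp : (p : O) ∈ maximalIdeal O) (ρ : GaloisRepAdic O) (S : Finset ℕ)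
    (hpS : p ∈ S)
    (hfrob : ∀ ℓ : ℕ, ℓ.Prime → ℓ ∉ S → ∀ A : ValuationSubring ℚ̄, A.LiesOverPrime ℓ →
      ∀ σ : Γℚ, A.IsFrobeniusAt σ ℓ →
        ∃ a : O, ρ.ρ σ * ρ.ρ σ - a • ρ.ρ σ + (ℓ : O) • (1 : Module.End O ρ.V) = 0)
    (g : Γℚ) :
    IsScalar2 (matRho ρ g + padicHom (maximalIdeal O) hp (cyc p g) • matRho ρ g⁻¹) := by
  set I := maximalIdeal O with hI
  set X := matRho ρ g + padicHom I hp (cyc p g) • matRho ρ g⁻¹ with hX
  have key : ∀ n, ∃ a : O ⧸ I ^ n, (Ideal.Quotient.mk (I ^ n)).mapMatrix X =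
      a • (1 : Matrix (Fin 2) (Fin 2) (O ⧸ I ^ n)) := by
    intro n
    let c : Γℚ →* O ⧸ I ^ n := (zmodToQuot I hp n).toMonoidHom.comp (cycMod p n)
    have hXn : (Ideal.Quotient.mk (I ^ n)).mapMatrix X =
        matMod ρ (I ^ n) g + c g • matMod ρ (I ^ n) g⁻¹ := by
      rw [hX, map_add, map_matRho]
      congr 1
      ext i j
      show Ideal.Quotient.mk (I ^ n) (_ * _) = _
      rw [map_mul, mk_padicHom]
      rfl
    simp only [hXn]
    obtain ⟨L₁, hL₁, hfix₁⟩ := ρ.isAdicContinuous n
    obtain ⟨L₂, hL₂, hfix₂⟩ := exists_level_cycMod (p := p) n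
    refine forall_of_frobenius (P := fun g => ∃ a : O ⧸ I ^ n,
      matMod ρ (I ^ n) g + c g • matMod ρ (I ^ n) g⁻¹ = a • 1) (L₁ ⊔ L₂) S ?_ ?_ ?_ g
    · intro g u hu hg
      have h1 : ∀ x ∈ L₁, u x = x := fun x hx => hu x (le_sup_left (a := L₁) hx)
      have h2 : ∀ x ∈ L₂, u x = x := fun x hx => hu x (le_sup_right (b := L₂) hx)
      have h1' : ∀ x ∈ L₁, u⁻¹ x = x := fun x hx => by
        conv_lhs => rw [← h1 x hx]
        exact u.symm_apply_apply x
      obtain ⟨a, ha⟩ := hg
      refine ⟨a, ?_⟩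
      have hc : c u = 1 := by
        show zmodToQuot I hp n (cycMod p n u) = 1
        rw [hfix₂ u h2, map_one]
      rw [map_mul, map_mul, hc, mul_one, matMod_eq_one ρ _ (hfix₁ u h1), mul_one,
        _root_.mul_inv_rev, map_mul, matMod_eq_one ρ _ (hfix₁ _ h1'), one_mul]
      exact ha
    · intro g k hg
      obtain ⟨a, ha⟩ := hg
      refine ⟨luc a (c g) k, ?_⟩
      have hinv : matMod ρ (I ^ n) g * matMod ρ (I ^ n) g⁻¹ = 1 := by
        rw [← map_mul, mul_inv_cancel, map_one]
      have hinv' : matMod ρ (I ^ n) g⁻¹ * matMod ρ (I ^ n) g = 1 := by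
        rw [← map_mul, inv_mul_cancel, map_one]
      have key := pow_add_pow_eq_luc (algebraMap (O ⧸ I ^ n) (Matrix (Fin 2) (Fin 2) (O ⧸ I ^ n)))
        (x := matMod ρ (I ^ n) g) (y := c g • matMod ρ (I ^ n) g⁻¹) (a := a) (d := c g)
        (Commute.smul_right (hinv.trans hinv'.symm) _) (by rw [ha, Algebra.algebraMap_eq_smul_one])
        (by rw [mul_smul_comm, hinv, Algebra.algebraMap_eq_smul_one]) k
      rw [_root_.smul_pow, ← map_pow, ← map_pow, ← map_pow, inv_pow,
        Algebra.algebraMap_eq_smul_one] at key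
      exact key
    · intro ℓ hℓ hℓS A hA σ hσ
      obtain ⟨a, ha⟩ := hfrob ℓ hℓ hℓS A hA σ hσ
      refine ⟨Ideal.Quotient.mk _ a, ?_⟩
      have hc : c σ = (ℓ : O ⧸ I ^ n) := by
        show zmodToQuot I hp n (PadicInt.toZModPow n (cyc p σ)) = _
        rw [cyc_frobenius hℓ (fun h => hℓS (h ▸ hpS)) hA hσ, map_natCast, map_natCast]
      have h1 : matRho ρ σ * matRho ρ σ - a • matRho ρ σ
          + (ℓ : O) • (1 : Matrix (Fin 2) (Fin 2) O) = 0 := by
        have := congrArg (LinearMap.toMatrixAlgEquiv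
          (Module.finBasisOfFinrankEq O ρ.V ρ.finrank_eq)) ha
        simp only [map_add, map_sub, map_mul, map_smul, map_one, map_zero] at this
        exact this
      have hinv : matRho ρ σ * matRho ρ σ⁻¹ = 1 := by rw [← map_mul, mul_inv_cancel, map_one]
      have h2 : matRho ρ σ + (ℓ : O) • matRho ρ σ⁻¹ = a • (1 : Matrix (Fin 2) (Fin 2) O) := by
        have h3 := congrArg (· * matRho ρ σ⁻¹) h1
        simp only [add_mul, sub_mul, smul_mul_assoc, one_mul, mul_assoc, hinv, mul_one, zero_mul] at h3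
        rwa [sub_add_eq_add_sub, sub_eq_zero] at h3
      rw [hc, ← map_matRho, ← map_matRho]
      have h4 := congrArg (Ideal.Quotient.mk (I ^ n)).mapMatrix h2
      rw [map_add] at h4
      refine Eq.trans ?_ (h4.trans ?_)
      · congr 1
      · ext i j
        fin_cases i <;> fin_cases j <;> simp
  refine ⟨?_, ?_, ?_⟩ <;>
    [skip; skip; refine sub_eq_zero.mp ?_] <;>
    refine IsHausdorff.haus (inferInstance : IsHausdorff (maximalIdeal O) O) _ fun n => ?_ <;>
    rw [SModEq.zero, smul_eq_mul, Ideal.mul_top, ← Ideal.Quotient.eq_zero_iff_mem] <;>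
    obtain ⟨a, ha⟩ := key n
  · simpa using congrFun (congrFun ha 0) 1
  · simpa using congrFun (congrFun ha 1) 0
  · have e0 := congrFun (congrFun ha 0) 0
    have e1 := congrFun (congrFun ha 1) 1
    simp only [RingHom.mapMatrix_apply, Matrix.map_apply, Matrix.smul_apply, Matrix.one_apply_eq,
      smul_eq_mul, mul_one] at e0 e1
    rw [map_sub, e0, e1, sub_self]

/-- A representation with the Frobenius relations `X ^ 2 - a X + ℓ` and a non-scalar element has
cyclotomic determinant. -/
theorem det_eq_cyc (hp : (p : O) ∈ maximalIdeal O) (ρ : GaloisRepAdic O) (S : Finset ℕ)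
    (hpS : p ∈ S)
    (hfrob : ∀ ℓ : ℕ, ℓ.Prime → ℓ ∉ S → ∀ A : ValuationSubring ℚ̄, A.LiesOverPrime ℓ →
      ∀ σ : Γℚ, A.IsFrobeniusAt σ ℓ →
        ∃ a : O, ρ.ρ σ * ρ.ρ σ - a • ρ.ρ σ + (ℓ : O) • (1 : Module.End O ρ.V) = 0)
    (h₀ : Γℚ) (hns : ∀ a : O, ρ.ρ h₀ ≠ a • (1 : Module.End O ρ.V)) (g : Γℚ) :
    LinearMap.det (ρ.ρ g) = padicHom (maximalIdeal O) hp (cyc p g) := by
  set c : Γℚ →* O := (padicHom (maximalIdeal O) hp).toMonoidHom.comp (cyc p) with hc
  have hdet : ∀ g, LinearMap.det (ρ.ρ g) = (matRho ρ g).det := fun g =>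
    (LinearMap.det_toMatrix _ _).symm
  have hnonscalar : ∀ g, ¬ IsScalar2 (matRho ρ g) → (matRho ρ g).det = c g := by
    intro g hg
    obtain ⟨a, ha⟩ : ∃ a : O, matRho ρ g + c g • matRho ρ g⁻¹ =
        a • (1 : Matrix (Fin 2) (Fin 2) O) :=
      ⟨_, (isScalar2_add_cyc hp ρ S hpS hfrob g).eq_smul⟩
    refine (trace_det_of_rel (a := a) ?_ hg).2
    have h3 := congrArg (matRho ρ g * ·) ha
    simp only [mul_add, mul_smul_comm, mul_one, ← map_mul, mul_inv_cancel, map_one] at h3
    rw [sub_add_eq_add_sub, sub_eq_zero, ← h3, map_mul]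
  have h₀ns : ¬ IsScalar2 (matRho ρ h₀) := fun h => by
    refine hns (matRho ρ h₀ 0 0) ((LinearMap.toMatrixAlgEquiv
      (Module.finBasisOfFinrankEq O ρ.V ρ.finrank_eq)).injective ?_)
    rw [map_smul, map_one]
    exact h.eq_smul
  rw [hdet]
  show _ = c g
  by_cases hg : IsScalar2 (matRho ρ g)
  · have hunit : matRho ρ g 0 0 ≠ 0 := fun h0 => by
      have h2 : matRho ρ g * matRho ρ g⁻¹ = 1 := by rw [← map_mul, mul_inv_cancel, map_one]
      rw [hg.eq_smul, h0, zero_smul, zero_mul] at h2
      exact one_ne_zero (congrFun (congrFun h2.symm 0) 0)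
    have hmul : ¬ IsScalar2 (matRho ρ (g * h₀)) := fun h => by
      rw [map_mul, hg.eq_smul, smul_mul_assoc, one_mul] at h
      refine h₀ns ⟨?_, ?_, ?_⟩
      · simpa [hunit] using h.1
      · simpa [hunit] using h.2.1
      · simpa [hunit] using h.2.2
    have h1 := hnonscalar _ hmul
    rw [map_mul, Matrix.det_mul, hnonscalar _ h₀ns, map_mul] at h1
    refine mul_right_cancel₀ ?_ h1
    intro h0
    have h2 : c h₀ * c h₀⁻¹ = 1 := by rw [← map_mul, mul_inv_cancel, map_one]
    rw [h0, zero_mul] at h2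
    exact zero_ne_one h2
  · exact hnonscalar g hg

end Det

section Main

variable {N : ℕ} [NeZero N] {p : ℕ} [Fact p.Prime] (G : GalModel N p)
  {O : Type} [CommRing O] [IsDomain O] [IsDiscreteValuationRing O]
  [IsAdicComplete (maximalIdeal O) O] [CharZero O]
  (hp : (p : O) ∈ maximalIdeal O) (χ : TZ N →+* O)

/-- The characteristic polynomial of Frobenius on the eigen-lattice. -/
theorem GalModel.rep_charpoly {ℓ : ℕ} (hℓ : ℓ.Prime) (hℓN : ¬ ℓ ∣ N) (hℓp : ℓ ≠ p)
    {A : ValuationSubring ℚ̄} (hA : A.LiesOverPrime ℓ) {σ : Γℚ} (hσ : A.IsFrobeniusAt σ ℓ) :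
    LinearMap.charpoly ((G.rep hp χ).ρ σ) =
      X ^ 2 - C (χ (heckeTOf hℓ hℓN)) * X + C (ℓ : O) := by
  classical
  have hN : 0 < N := Nat.pos_of_ne_zero (NeZero.ne N)
  have hd := det_eq_cyc hp (G.rep hp χ) (insert p N.divisors) (Finset.mem_insert_self _ _)
    (fun q hq hqS A hA σ hσ =>
      ⟨_, G.rep_frobenius_rel hp χ hq
        (fun h => hqS (Finset.mem_insert_of_mem (Nat.mem_divisors.mpr ⟨h, hN.ne'⟩)))
        (fun h => hqS (h ▸ Finset.mem_insert_self _ _)) hA hσ⟩)
    G.cc (G.rep_cc_not_scalar hp χ) σ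
  rw [cyc_frobenius hℓ hℓp hA hσ, map_natCast] at hd
  have hdm : (matRho (G.rep hp χ) σ).det = (ℓ : O) :=
    (LinearMap.det_toMatrix _ _).trans hd
  have hrel : matRho (G.rep hp χ) σ * matRho (G.rep hp χ) σ
      - χ (heckeTOf hℓ hℓN) • matRho (G.rep hp χ) σ
      + (matRho (G.rep hp χ) σ).det • (1 : Matrix (Fin 2) (Fin 2) O) = 0 := by
    rw [hdm]
    have := congrArg (LinearMap.toMatrixAlgEquiv
      (Module.finBasisOfFinrankEq O (G.rep hp χ).V (G.rep hp χ).finrank_eq))
      (G.rep_frobenius_rel hp χ hℓ hℓN hℓp hA hσ)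
    simp only [map_add, map_sub, map_mul, map_smul, map_one, map_zero] at this
    exact this
  have ht := trace_of_rel_of_det (Y := matRho (G.rep hp χ) σ⁻¹)
    (by rw [← map_mul, mul_inv_cancel, map_one]) hrel
  rw [charpoly_of_finrank_eq_two (G.rep hp χ).finrank_eq, hd,
    LinearMap.trace_eq_matrix_trace O
      (Module.finBasisOfFinrankEq O (G.rep hp χ).V (G.rep hp χ).finrank_eq)]
  rw [show LinearMap.toMatrix _ _ ((G.rep hp χ).ρ σ) = matRho (G.rep hp χ) σ from rfl, ht]

end Main

end FLTAgent.Reps
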