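import Mathlib
import Fermat.Prelude.Def_CuspForm_HeckeGaloisRepDatum
import Fermat.Agent.Reps.Coeff
import Fermat.Agent.Reps.Eigen

/-!
# Representations attached to points of the Hecke algebra

`GalModel.exists_rep_of_point`: a character of the Hecke algebra away from a finite set `S ∋ p`
with values in a complete discrete valuation ring extends, after a finite extension of the ring,
to the full Hecke ring (`exists_dvr_extension`); the representation on its eigen-lattice then has
the prescribed characteristic polynomials of Frobenius outside `S` and is unramified outside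
`N p`.
-/

set_option autoImplicit false

noncomputable section

open CuspForm Polynomial
open IsLocalRing (maximalIdeal ResidueField)

namespace FLTAgent.Reps

local notation "ℚ̄" => AlgebraicClosure ℚ
local notation "Γℚ" => (AlgebraicClosure ℚ ≃ₐ[ℚ] AlgebraicClosure ℚ)

variable {N : ℕ} [NeZero N] {p : ℕ} [Fact p.Prime]

theorem GalModel.moduleFinite_TZ (G : GalModel N p) : Module.Finite ℤ (TZ N) :=
  Module.Finite.of_injective G.τ.toAddMonoidHom.toIntLinearMap G.τ_injective

/-- The representation attached to a point of the Hecke algebra away from `S`. -/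
theorem GalModel.exists_rep_of_point (G : GalModel N p) (S : Finset ℕ) (hpS : p ∈ S)
    (O : Type) [CommRing O] [IsDomain O] [IsDiscreteValuationRing O]
    [IsAdicComplete (maximalIdeal O) O] [Finite (ResidueField O)] [CharZero O]
    (hp : (p : O) ∈ maximalIdeal O)
    (χ : heckeAlgebra N 2 (↑S : Set ℕ) →+* O) :
      ∃ (O' : Type) (_ : CommRing O') (_ : IsDomain O') (_ : IsDiscreteValuationRing O')
        (_ : IsAdicComplete (maximalIdeal O') O')
        (_ : Finite (ResidueField O')) (_ : CharZero O')
        (_ : Algebra O O') (_ : Module.Finite O O') (_ : IsLocalHom (algebraMap O O')),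
      Function.Injective (algebraMap O O') ∧
      ∃ ρ : GaloisRepAdic O',
        (∀ (ℓ : ℕ) (hℓ : ℓ.Prime) (hℓN : ¬ ℓ ∣ N) (hℓS : ℓ ∉ (↑S : Set ℕ)),
          ∀ A : ValuationSubring ℚ̄, A.LiesOverPrime ℓ →
            ∀ σ : Γℚ, A.IsFrobeniusAt σ ℓ →
              LinearMap.charpoly (ρ.ρ σ) =
                X ^ 2 - C (algebraMap O O' (χ (heckeAlgebra.T hℓ hℓN hℓS))) * X
                  + C ((ℓ : O'))) ∧
        (∀ q : ℕ, q.Prime → ¬ q ∣ N → q ≠ p → ρ.IsUnramifiedAt q) := by
  have := G.moduleFinite_TZ
  let i : ↥(heckeAlgebra N 2 (↑S : Set ℕ)) →+* TZ N :=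
    (Subalgebra.inclusion (heckeAlgebra_mono (Set.empty_subset (↑S : Set ℕ)))).toRingHom
  obtain ⟨O', _, _, _, _, _, _, _, _, _, hinj, χ', hχ'⟩ :=
    exists_dvr_extension i (Subalgebra.inclusion_injective _)
      (RingHom.Finite.of_comp_finite (f := algebraMap ℤ _) (g := i) (by
        rw [Subsingleton.elim (i.comp _) (algebraMap ℤ (TZ N))]
        exact RingHom.finite_algebraMap.mpr inferInstance)) χ
  have hp' : (p : O') ∈ maximalIdeal O' := by
    rw [← map_natCast (algebraMap O O')]
    exact map_nonunit (algebraMap O O') _ hp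
  refine ⟨O', inferInstance, inferInstance, inferInstance, inferInstance, inferInstance,
    inferInstance, inferInstance, inferInstance, inferInstance, hinj, G.rep hp' χ',
    fun ℓ hℓ hℓN hℓS A hA σ hσ => ?_, fun q hq hqN hqp => G.rep_unramified hp' χ' hq hqN hqp⟩
  rw [G.rep_charpoly hp' χ' hℓ hℓN (fun h => hℓS (h ▸ Finset.mem_coe.mpr hpS)) hA hσ,
    show χ' (heckeTOf hℓ hℓN) = algebraMap O O' (χ (heckeAlgebra.T hℓ hℓN hℓS)) from
      RingHom.congr_fun hχ' (heckeAlgebra.T hℓ hℓN hℓS)]

end FLTAgent.Reps
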