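import Mathlib
import Fermat.Prelude.Def_GaloisRep_Residual
import Fermat.Prelude.Def_GaloisRep_Adic
import Fermat.Agent.Reps.HeckeEigen
import Fermat.Agent.Reps.Coeff
import Fermat.Agent.Reps.Eigen
import Fermat.Agent.Reps.Point

/-!
# Residual representations attached to eigenforms

`exists_coeff_of_residual`: a character with values in an algebraically closed field of
characteristic `p` on a ring finite free over `ℤ` lifts to a complete discrete valuation ring of
characteristic zero (a minimal prime of `ℤ_p ⊗ A` below its kernel, then `exists_dvr_extension`).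
`exists_residual_of_eigenform`: applied to the eigenvalues of a normalised weight two eigenform,
the reduction of `GalModel.rep` is attached to the form and unramified outside `N p`.
-/

set_option autoImplicit false

noncomputable section

open CuspForm Polynomial
open IsLocalRing (maximalIdeal ResidueField)
open scoped TensorProduct

namespace FLTAgent.Reps

local notation "ℚ̄" => AlgebraicClosure ℚ
local notation "Γℚ" => (AlgebraicClosure ℚ ≃ₐ[ℚ] AlgebraicClosure ℚ)

/-- The trivial two dimensional representation. -/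
def trivialResidual (k : Type) [Field k] : ResidualGaloisRep k where
  V := Fin 2 → k
  finrank_eq := by simp
  ρ := 1
  factorsThroughFiniteLevel := ⟨⊥, inferInstance, fun _ _ => rfl⟩

instance isMaximal_ker_of_charP {p : ℕ} [Fact p.Prime] {k : Type} [Field k] [CharP k p]
    (φ : integralClosure ℤ ℂ →+* k) : (RingHom.ker φ).IsMaximal := by
  have : (RingHom.ker φ).IsPrime := RingHom.ker_isPrime φ
  refine Ideal.isMaximal_of_isIntegral_of_isMaximal_comap (R := ℤ) _ ?_
  refine Ideal.IsPrime.isMaximal inferInstance fun h => ?_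
  have : (p : ℤ) ∈ (RingHom.ker φ).comap (algebraMap ℤ (integralClosure ℤ ℂ)) := by
    rw [Ideal.mem_comap, RingHom.mem_ker, ← RingHom.comp_apply,
      Subsingleton.elim (φ.comp _) (algebraMap ℤ k), map_natCast, CharP.cast_eq_zero]
  rw [h, Ideal.mem_bot] at this
  exact (Fact.out : p.Prime).ne_zero (mod_cast this)

theorem isAlgClosed_quot (M : Ideal (integralClosure ℤ ℂ)) [M.IsMaximal] :
    letI := Ideal.Quotient.field M
    IsAlgClosed (integralClosure ℤ ℂ ⧸ M) := by
  let := Ideal.Quotient.field M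
  refine IsAlgClosed.of_exists_root _ fun P hP hirr => ?_
  obtain ⟨Q, hQ, hdeg, hQm⟩ := Polynomial.lifts_and_natDegree_eq_and_monic
    (f := Ideal.Quotient.mk M) (p := P)
    (Polynomial.map_surjective _ Ideal.Quotient.mk_surjective P |>.imp fun _ h => h) hP
  have hd : (Q.map (integralClosure ℤ ℂ).val.toRingHom).degree ≠ 0 := by
    rw [Polynomial.degree_map_eq_of_injective Subtype.val_injective,
      Polynomial.degree_eq_natDegree hQm.ne_zero, hdeg]
    exact_mod_cast hirr.natDegree_pos.ne'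
  obtain ⟨z, hz⟩ := IsAlgClosed.exists_root _ hd
  rw [Polynomial.IsRoot.def, Polynomial.eval_map] at hz
  have hzint : z ∈ integralClosure ℤ ℂ :=
    isIntegral_trans (A := ↥(integralClosure ℤ ℂ)) z ⟨Q, hQm, hz⟩
  refine ⟨Ideal.Quotient.mk M ⟨z, hzint⟩, ?_⟩
  rw [← hQ, Polynomial.eval_map, Polynomial.eval₂_hom]
  have h0 : Q.eval (⟨z, hzint⟩ : integralClosure ℤ ℂ) = 0 := by
    apply Subtype.val_injective
    refine ((Polynomial.eval₂_hom (integralClosure ℤ ℂ).val.toRingHom _).symm.trans ?_)
    exact hz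
  rw [h0, map_zero]

theorem ker_eq_maximalIdeal_of_charP {p : ℕ} [Fact p.Prime] {D : Type} [CommRing D] [IsLocalRing D]
    [Algebra ℤ_[p] D] [Algebra.IsIntegral ℤ_[p] D] {E : Type} [Field E] [CharP E p] (f : D →+* E) :
    RingHom.ker f = maximalIdeal D := by
  have : (RingHom.ker f).IsPrime := RingHom.ker_isPrime f
  have hprime : ((RingHom.ker f).comap (algebraMap ℤ_[p] D)).IsPrime :=
    Ideal.comap_isPrime (algebraMap ℤ_[p] D) (RingHom.ker f)
  refine IsLocalRing.eq_maximalIdeal (Ideal.isMaximal_of_isIntegral_of_isMaximal_comap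
    (R := ℤ_[p]) (RingHom.ker f) ?_)
  have heq : maximalIdeal ℤ_[p] = (RingHom.ker f).comap (algebraMap ℤ_[p] D) := by
    refine (IsLocalRing.maximalIdeal.isMaximal ℤ_[p]).eq_of_le hprime.ne_top ?_
    rw [PadicInt.maximalIdeal_eq_span_p, Ideal.span_le, Set.singleton_subset_iff]
    show algebraMap ℤ_[p] D (p : ℤ_[p]) ∈ RingHom.ker f
    rw [RingHom.mem_ker, map_natCast, map_natCast, CharP.cast_eq_zero]
  exact heq ▸ IsLocalRing.maximalIdeal.isMaximal ℤ_[p]

/-- A residual character of a finite free `ℤ`-algebra lifts to a characteristic zero coefficient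
ring. -/
theorem exists_coeff_of_residual {p : ℕ} [Fact p.Prime] (A : Type) [CommRing A]
    [IsAddTorsionFree A] [Module.Finite ℤ A] {F : Type} [Field F] [IsAlgClosed F] [CharP F p]
    (ψ : A →+* F) :
    ∃ (O : Type) (_ : CommRing O) (_ : IsDomain O) (_ : IsDiscreteValuationRing O)
      (_ : IsAdicComplete (maximalIdeal O) O) (_ : Finite (ResidueField O)) (_ : CharZero O)
      (_ : (p : O) ∈ maximalIdeal O),
      ∃ (χ : A →+* O) (ι : ResidueField O →+* F), ∀ a, ι (IsLocalRing.residue O (χ a)) = ψ a := by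
  have : Module.Free ℤ A := Module.free_of_finite_type_torsion_free'
  let D₀ := ℤ_[p] ⊗[ℤ] A
  let Φ : D₀ →+* F := (Algebra.TensorProduct.productMap
    ((ZMod.castHom (dvd_refl p) F).comp (PadicInt.toZMod (p := p))).toIntAlgHom
    ψ.toIntAlgHom).toRingHom
  have : (RingHom.ker Φ).IsPrime := RingHom.ker_isPrime Φ
  obtain ⟨Q, hQmin, hQle⟩ := Ideal.exists_minimalPrimes_le (bot_le : (⊥ : Ideal D₀) ≤ RingHom.ker Φ)
  have : Q.IsPrime := hQmin.1.1
  let D := D₀ ⧸ Q
  have hpQ : algebraMap ℤ_[p] D₀ (p : ℤ_[p]) ∉ Q := fun h => by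
    have hnzd : algebraMap ℤ_[p] D₀ (p : ℤ_[p]) ∈ nonZeroDivisors D₀ := by
      rw [mem_nonZeroDivisors_iff_right]
      intro x hx
      rw [mul_comm, ← Algebra.smul_def] at hx
      exact (smul_eq_zero.mp hx).resolve_left (by exact_mod_cast (Fact.out : p.Prime).ne_zero)
    exact Set.disjoint_left.mp (Ideal.disjoint_nonZeroDivisors_of_mem_minimalPrimes hQmin) h hnzd
  have hinjD : Function.Injective (algebraMap ℤ_[p] D) := by
    rw [RingHom.injective_iff_ker_eq_bot]
    by_contra hne
    obtain ⟨k, hk⟩ : ∃ k : ℕ, RingHom.ker (algebraMap ℤ_[p] D) = Ideal.span {(p : ℤ_[p]) ^ k} :=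
      PadicInt.ideal_eq_span_pow_p hne
    have h1 : algebraMap ℤ_[p] D ((p : ℤ_[p]) ^ k) = 0 :=
      RingHom.mem_ker.mp (hk ▸ Ideal.mem_span_singleton_self _)
    rw [map_pow] at h1
    exact hpQ (Ideal.Quotient.eq_zero_iff_mem.mp (eq_zero_of_pow_eq_zero h1))
  have hfinD : RingHom.Finite (A := ℤ_[p]) (B := D) (algebraMap ℤ_[p] D) := RingHom.finite_algebraMap.mpr inferInstance
  obtain ⟨O, _, _, _, _, _, _, _, hfinO, _, hinjO, χ', hχ'⟩ :=
    exists_dvr_extension (O := ℤ_[p]) (A := ℤ_[p]) (B := D) (algebraMap ℤ_[p] D) hinjD hfinD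
      (RingHom.id ℤ_[p])
  have hp : (p : O) ∈ maximalIdeal O := by
    rw [← map_natCast (algebraMap ℤ_[p] O)]
    refine map_nonunit (algebraMap ℤ_[p] O) _ ?_
    rw [PadicInt.maximalIdeal_eq_span_p]
    exact Ideal.mem_span_singleton_self _
  let χD : D₀ →+* O := χ'.comp (Ideal.Quotient.mk Q)
  have hχD : χD.comp (algebraMap ℤ_[p] D₀) = algebraMap ℤ_[p] O := by
    rw [← RingHom.comp_id (algebraMap ℤ_[p] O), ← hχ']
    rfl
  -- both residual characters have the same (maximal) kernel
  set r : D₀ →+* ResidueField O := (IsLocalRing.residue O).comp χD with hr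
  have hker : RingHom.ker r = RingHom.ker Φ := by
    have : IsLocalRing (D₀ ⧸ Q) := isLocalRing_of_finite_domain (O := ℤ_[p]) (D₀ ⧸ Q)
    let ΦD : D₀ ⧸ Q →+* F := Ideal.Quotient.lift Q Φ fun x hx => RingHom.mem_ker.mp (hQle hx)
    have hmax : ∀ {E : Type} [Field E] [CharP E p] (f : D₀ ⧸ Q →+* E),
        RingHom.ker f = maximalIdeal (D₀ ⧸ Q) := fun f =>
      @ker_eq_maximalIdeal_of_charP p _ (D₀ ⧸ Q) _ _ _ _ _ _ _ f
    have : CharP (ResidueField O) p := (CharP.charP_iff_prime_eq_zero Fact.out).mpr (by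
      rw [← map_natCast (IsLocalRing.residue O), IsLocalRing.residue_eq_zero_iff]
      exact hp)
    ext x
    rw [RingHom.mem_ker, RingHom.mem_ker]
    have h1 := SetLike.ext_iff.mp (hmax ((IsLocalRing.residue O).comp χ')) (Ideal.Quotient.mk Q x)
    have h2 := SetLike.ext_iff.mp (hmax ΦD) (Ideal.Quotient.mk Q x)
    exact h1.trans h2.symm
  let i : D₀ ⧸ RingHom.ker Φ →+* ResidueField O :=
    Ideal.Quotient.lift _ r fun x hx => RingHom.mem_ker.mp (hker ▸ hx)
  have hi : Function.Injective i :=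
    RingHom.lift_injective_of_ker_le_ideal _ _ hker.le
  have : Module.Finite ℤ_[p] O := hfinO
  have hint : RingHom.IsIntegral (R := D₀ ⧸ RingHom.ker Φ) i := by
    have h1 : (i.comp ((Ideal.Quotient.mk _).comp (algebraMap ℤ_[p] D₀))).IsIntegral := by
      have : i.comp ((Ideal.Quotient.mk _).comp (algebraMap ℤ_[p] D₀)) =
          (IsLocalRing.residue O).comp (algebraMap ℤ_[p] O) := by
        rw [← hχD, ← RingHom.comp_assoc, Ideal.Quotient.lift_comp_mk, hr, RingHom.comp_assoc]
      rw [this]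
      exact RingHom.IsIntegral.trans _ _ (algebraMap_isIntegral_iff.mpr inferInstance)
        (RingHom.isIntegral_of_surjective _ IsLocalRing.residue_surjective)
    exact RingHom.IsIntegral.tower_top _ _ h1
  obtain ⟨ι, hι⟩ := exists_ringHom_extension hi hint (RingHom.kerLift Φ)
  refine ⟨O, inferInstance, inferInstance, inferInstance, inferInstance, inferInstance,
    inferInstance, hp, χD.comp Algebra.TensorProduct.includeRight.toRingHom, ι, fun a => ?_⟩
  refine (RingHom.congr_fun hι (Ideal.Quotient.mk _ (Algebra.TensorProduct.includeRight a))).trans ?_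
  show Φ ((1 : ℤ_[p]) ⊗ₜ[ℤ] a) = ψ a
  refine (Algebra.TensorProduct.productMap_apply_tmul _ _ _ _).trans ?_
  simp

/-- A normalised eigenform has a residual representation, unramified outside `N p`. -/
theorem exists_residual_of_eigenform {N : ℕ} [NeZero N] {p : ℕ} [Fact p.Prime] (G : GalModel N p)
    {g : CuspForm (CongruenceSubgroup.Gamma0 N) 2} (hg : g.IsNormalizedEigenform)
    {k : Type} [Field k] [CharP k p] (φ : integralClosure ℤ ℂ →+* k) :
    ∃ ρ : ResidualGaloisRep k, ρ.IsAttachedTo g φ ∧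
      ∀ ℓ : ℕ, ℓ.Prime → ¬ ℓ ∣ N * p → ρ.IsUnramifiedAt ℓ := by
  have := G.moduleFinite_TZ
  have := isMaximal_ker_of_charP φ
  let := Ideal.Quotient.field (RingHom.ker φ)
  let F := integralClosure ℤ ℂ ⧸ RingHom.ker φ
  have : IsAlgClosed F := isAlgClosed_quot _
  have : CharP F p := RingHom.charP (RingHom.kerLift φ) (RingHom.kerLift_injective φ) p
  let lam : TZ N →+* integralClosure ℤ ℂ :=
    { toFun := fun t => ⟨eigenHom hg t, (IsIntegral.of_finite ℤ t).map (eigenHom hg).toIntAlgHom⟩
      map_one' := Subtype.ext (map_one _)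
      map_mul' := fun a b => Subtype.ext (map_mul _ a b)
      map_zero' := Subtype.ext (map_zero _)
      map_add' := fun a b => Subtype.ext (map_add _ a b) }
  obtain ⟨O, _, _, _, _, _, _, hp, χ, ι, hι⟩ :=
    exists_coeff_of_residual (p := p) (TZ N) ((Ideal.Quotient.mk (RingHom.ker φ)).comp lam)
  let ι' : ResidueField O →+* k := (RingHom.kerLift φ).comp ι
  refine ⟨(G.rep hp χ).residual.baseChangeAlong ι', ?_, ?_⟩
  · intro ℓ hℓ hℓN hℓk A hA σ hσ
    refine ⟨lam (heckeTOf hℓ hℓN), eigenHom_T hg hℓ hℓN, ?_⟩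
    have hℓp : ℓ ≠ p := fun h => hℓk (h ▸ CharP.cast_eq_zero k p)
    have hc := G.rep_charpoly hp χ hℓ hℓN hℓp hA hσ
    let : Algebra (ResidueField O) k := ι'.toAlgebra
    show LinearMap.charpoly ((((G.rep hp χ).ρ σ).baseChange (ResidueField O)).baseChange k) = _
    rw [LinearMap.charpoly_baseChange, LinearMap.charpoly_baseChange, hc]
    have hval : ι' (IsLocalRing.residue O (χ (heckeTOf hℓ hℓN))) = φ (lam (heckeTOf hℓ hℓN)) := by
      show RingHom.kerLift φ (ι _) = _
      rw [hι]
      rfl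
    simp only [Polynomial.map_add, Polynomial.map_sub, Polynomial.map_mul, Polynomial.map_pow,
      Polynomial.map_X, Polynomial.map_C, IsLocalRing.ResidueField.algebraMap_eq, map_natCast,
      RingHom.algebraMap_toAlgebra, Polynomial.map_natCast, hval]
  · intro ℓ hℓ hℓNp A hA σ hσ
    have h1 := G.rep_unramified hp χ hℓ (fun h => hℓNp (h.mul_right p))
      (fun h => hℓNp (h ▸ dvd_mul_left p N)) A hA σ hσ
    let : Algebra (ResidueField O) k := ι'.toAlgebra
    show (((G.rep hp χ).ρ σ).baseChange (ResidueField O)).baseChange k = 1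
    rw [h1, LinearMap.baseChange_one, LinearMap.baseChange_one]

end FLTAgent.Reps
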