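import Fermat.Agent.HeckeH.Eigen
import Fermat.Agent.HeckeH.Final
import Fermat.Agent.Kronecker.HeckeGalois
import Fermat.Agent.Kronecker.Specialization
import Fermat.Prelude.Def_ModularCurve_HeckeModule

/-!
# Geometric inputs to the Galois model

Facts proved in `HeckeH` and `Kronecker`, restated on torsion classes of `J₀(N)`:
`jTorsionEquiv_heckeOperatorBar` (Hecke operators in period coordinates),
`galois_smul_heckeOperatorBar` (they commute with Galois), `frobenius_rel_torsion`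
(the Eichler–Shimura relation) and `inertia_smul_torsion` (inertia away from `N p` acts trivially
on `p`-power torsion).
-/

set_option autoImplicit false

noncomputable section

open AlgebraicCurve ModularCurve CongruenceSubgroup

namespace FLTAgent.Reps

local notation "ℚ̄" => AlgebraicClosure ℚ
local notation "Γℚ" => (AlgebraicClosure ℚ ≃ₐ[ℚ] AlgebraicClosure ℚ)

variable (N : ℕ) [NeZero N]

theorem heckeOperatorBar_mem_torsion {n : ℕ} (ℓ : Nat.Primes) {x : JZero N}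
    (hx : x ∈ Pic0.torsion ℚ̄ (modularFunctionFieldBar N) n) :
    heckeOperatorBar N ℓ x ∈ Pic0.torsion ℚ̄ (modularFunctionFieldBar N) n := by
  rw [Pic0.mem_torsion] at hx ⊢
  rw [← map_zsmul, hx, map_zero]

theorem nsmul_eq_zero_of_mem_torsion {n : ℕ} {x : JZero N}
    (hx : x ∈ Pic0.torsion ℚ̄ (modularFunctionFieldBar N) n) : n • x = 0 := by
  rw [Pic0.mem_torsion] at hx
  exact_mod_cast hx

omit [NeZero N] in
theorem not_dvd_mul_of_ne {p ℓ : ℕ} (hp : p.Prime) (hℓ : ℓ.Prime) (hℓN : ¬ ℓ ∣ N) (hne : ℓ ≠ p) :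
    ¬ ℓ ∣ N * p := fun h =>
  (hℓ.dvd_mul.mp h).elim hℓN fun h2 => hne ((Nat.prime_dvd_prime_iff_eq hℓ hp).mp h2)

/-- `heckeOperatorBar` on torsion classes is the transposed double coset operator. -/
theorem jTorsionEquiv_heckeOperatorBar (ι : Torsion.Qb →+* ℂ) (n : ℕ) [NeZero n] (ℓ : Nat.Primes)
    (x : Pic0.torsion ℚ̄ (modularFunctionFieldBar N) n) :
    Torsion.jTorsionEquiv N ι n
        ⟨heckeOperatorBar N ℓ (x : JZero N), heckeOperatorBar_mem_torsion N ℓ x.2⟩ =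
      HeckeH.heckeHT N ℓ.2 (ZMod n) (ZMod n) (Torsion.jTorsionEquiv N ι n x) :=
  HeckeH.jTorsionEquiv_heckeOperatorBar N ι ℓ.2 x

/-- Galois commutes with the Hecke operators. -/
theorem galois_smul_heckeOperatorBar (σ : Γℚ) (ℓ : Nat.Primes) (x : JZero N) :
    σ • heckeOperatorBar N ℓ x = heckeOperatorBar N ℓ (σ • x) :=
  (Kronecker.heckeOperatorBar_galois_smul N ℓ σ x).symm

/-- The Eichler–Shimura relation on `p`-power torsion. -/
theorem frobenius_rel_torsion {p : ℕ} (hp : p.Prime) {ℓ : ℕ} (hℓ : ℓ.Prime) (hℓN : ¬ ℓ ∣ N)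
    (hℓp : ℓ ≠ p) {A : ValuationSubring ℚ̄} (hA : A.LiesOverPrime ℓ) {σ : Γℚ}
    (hσ : A.IsFrobeniusAt σ ℓ) {m : ℕ} {x : JZero N}
    (hx : x ∈ Pic0.torsion ℚ̄ (modularFunctionFieldBar N) (p ^ m)) :
    σ • σ • x - heckeOperatorBar N ⟨ℓ, hℓ⟩ (σ • x) + ℓ • x = 0 :=
  Kronecker.frobenius_quadratic_torsion hℓ (not_dvd_mul_of_ne N hp hℓ hℓN hℓp) hA hσ
    (nsmul_eq_zero_of_mem_torsion N hx)

/-- Good reduction: inertia acts trivially on `p`-power torsion. -/
theorem inertia_smul_torsion {p : ℕ} (hp : p.Prime) {q : ℕ} (hq : q.Prime) (hqN : ¬ q ∣ N)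
    (hqp : q ≠ p) {A : ValuationSubring ℚ̄} (hA : A.LiesOverPrime q) {σ : Γℚ}
    (hσ : σ ∈ A.inertiaSubgroupIn ℚ) {m : ℕ} {x : JZero N}
    (hx : x ∈ Pic0.torsion ℚ̄ (modularFunctionFieldBar N) (p ^ m)) :
    σ • x = x :=
  Kronecker.inertia_smul_torsion hq (not_dvd_mul_of_ne N hp hq hqN hqp) hA hσ
    (nsmul_eq_zero_of_mem_torsion N hx)

end FLTAgent.Reps
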